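import Fermat.Agent.OpenImageNF.InertValue
import Fermat.Agent.IsogenyNF.NodeTorsion
import Fermat.Agent.Local.OrdinaryTorsion

/-!
# The node at a pole of the invariant and the points fixed by inertia

Inertia moves every point into nonsingular reduction, for every prime `p` some point killed by `p`
lies outside it, and the points fixed by inertia have finitely many classes modulo it.
-/

set_option autoImplicit false
set_option linter.unusedSectionVars false

noncomputable section

namespace FA.OpenImageNF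

open WeierstrassCurve NumberField IsDedekindDomain FA.Local
open FA.LocalDef (nodeChar nodeChar_unit nodeChar_nsmul nodeChar_e1 e1_of_nodeChar)
open scoped WeierstrassCurve.Affine

universe u v

/-- Some point killed by `p` is outside nonsingular reduction, for every prime `p`. -/
theorem exists_torsion_not_e0 {L Γ : Type*} [Field L] [CharZero L] [IsAlgClosed L] [DecidableEq L]
    [LinearOrderedCommGroupWithZero Γ] {v : Valuation L Γ} {V : WeierstrassCurve L} [V.IsElliptic]
    (hN : Node v V.toAffine) {p : ℕ} (hp : p.Prime) :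
    ∃ P : V.toAffine.Point, p • P = 0 ∧ ¬ E0 v V.toAffine P := by
  rcases eq_or_ne p 2 with rfl | hp2
  · exact ⟨hN.T, hN.two_nsmul_T, hN.T_not_e0⟩
  have hodd := hp.odd_of_ne_two hp2
  by_cases hpv : v (p : L) = 1
  · exact IsogenyNF.exists_not_e0 hN hp hodd hpv
  have hlt : v (p : L) < 1 := lt_of_le_of_ne (natCast_le_one p) hpv
  obtain ⟨-, P, hP, hP1⟩ := exists_torsion_of_node hN hp hp2 (Nat.cast_ne_zero.2 hp.ne_zero) hlt
  refine ⟨P, hP, fun h0 => hP1 ?_⟩
  obtain ⟨s, hs⟩ : ∃ s : L, v (qb V.toAffine s) < 1 := by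
    obtain ⟨t, ht⟩ := IsAlgClosed.exists_root (Polynomial.C 1 * Polynomial.X ^ 2
      + Polynomial.C V.a₁ * Polynomial.X + Polynomial.C (-V.a₂)) (by
        rw [Polynomial.degree_quadratic one_ne_zero]; exact two_ne_zero)
    simp only [Polynomial.IsRoot.def, Polynomial.eval_add, Polynomial.eval_mul, Polynomial.eval_C,
      Polynomial.eval_pow, Polynomial.eval_X, one_mul] at ht
    refine ⟨t, ?_⟩
    rw [show qb V.toAffine t = 0 by simp only [qb]; linear_combination ht, map_zero]
    exact zero_lt_one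
  refine e1_of_nodeChar hN hs h0 ?_
  set c := nodeChar v V.toAffine s P
  have hc : v c = 1 := nodeChar_unit hN hs h0
  have hcp : v (c ^ p - 1) < 1 := by
    have h := nodeChar_nsmul hN hs h0 p
    rwa [hP, nodeChar_e1 e1_zero, v.map_sub_swap] at h
  have hd : v (c - 1) ≤ 1 := v.map_sub_le hc.le (map_one v).le
  let d : v.integer := ⟨c - 1, hd⟩
  obtain ⟨r, hr⟩ := exists_add_pow_prime_eq hp d 1
  have e := congrArg Subtype.val hr
  push_cast at e
  simp only [d, sub_add_cancel, one_pow, mul_one] at e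
  have he : v ((c - 1) ^ p) < 1 := by
    rw [show (c - 1) ^ p = c ^ p - 1 - (p : L) * (c - 1) * (r : L) by linear_combination -e]
    refine v.map_sub_lt hcp ?_
    rw [map_mul, map_mul]
    exact lt_of_le_of_lt (mul_le_of_le_one_right' r.2)
      (lt_of_le_of_lt (mul_le_of_le_one_right' hd) hlt)
  rw [map_pow] at he
  by_contra hge
  exact absurd he (not_lt.2 (one_le_pow_of_one_le' (not_lt.1 hge) p))

variable {K : Type u} [Field K] [NumberField K] {Kb : Type v} [Field Kb] [DecidableEq Kb]
  [Algebra K Kb] [CharZero Kb] [IsAlgClosed Kb] [Algebra.IsAlgebraic K Kb]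

/-- A node over a place, with a uniformizer and the exponent of the discriminant. -/
structure NodeK (W : WeierstrassCurve K) (A : ValuationSubring Kb)
    (w : HeightOneSpectrum (𝓞 K)) (π : K) (N : ℕ) (r : Kb) : Prop where
  isOver : OverPlace A w
  unif : w.valuation K π = WithZero.exp (-1 : ℤ)
  int : IntCoeff A.valuation (W.baseChange Kb).toAffine
  root : psi2 (W.baseChange Kb) r = 0
  r_le : A.valuation r ≤ 1
  node : Node A.valuation (toOrigin (W.baseChange Kb) r).toAffine
  disc : A.valuation (W.baseChange Kb).Δ = A.valuation (algebraMap K Kb π) ^ N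

variable (Kb) in
/-- A place of multiplicative reduction has its node. -/
theorem exists_nodeK (W : WeierstrassCurve K) [W.IsElliptic] (w : HeightOneSpectrum (𝓞 K))
    (hI : IntCoeff (w.valuation K) W.toAffine) {N : ℕ} (hN : 0 < N)
    (hΔ : w.valuation K W.Δ = WithZero.exp (-(N : ℤ))) (hc : w.valuation K W.c₄ = 1) :
    ∃ (A : ValuationSubring Kb) (π : K) (r : Kb), NodeK W A w π N r := by
  obtain ⟨A, hA⟩ := exists_overPlace Kb w
  obtain ⟨π, hπ⟩ := w.valuation_exists_uniformizer K
  have hπ0 : π ≠ 0 := fun h => by rw [h, map_zero] at hπ; exact WithZero.exp_ne_zero hπ.symm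
  have hI' : IntCoeff A.valuation (W.baseChange Kb).toAffine :=
    IsogenyNF.intCoeff_of_place hA.le_one hI
  obtain ⟨r, hr, hr1, hnode⟩ := FA.Local.exists_node (V := W.baseChange Kb) hI' two_ne_zero
    (by
      rw [WeierstrassCurve.baseChange, map_Δ]
      exact hA.lt_one _ (by rw [hΔ, ← WithZero.exp_zero, WithZero.exp_lt_exp]; omega))
    (W.baseChange Kb).isUnit_Δ.ne_zero
    (by rw [WeierstrassCurve.baseChange, map_c₄]; exact hA.eq_one hc)
  refine ⟨A, π, r, hA, hπ, hI', hr, hr1, hnode, ?_⟩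
  have h1 := hA.eq_one (x := W.Δ / π ^ N) (by
    rw [map_div₀, map_pow, hΔ, hπ, ← WithZero.exp_nsmul, div_eq_one_iff_eq WithZero.exp_ne_zero]
    congr 1
    simp)
  rw [map_div₀, map_div₀, map_pow, map_pow, div_eq_one_iff_eq
    (pow_ne_zero _ (A.valuation.ne_zero_iff.2 ((map_ne_zero _).2 hπ0)))] at h1
  rw [WeierstrassCurve.baseChange, map_Δ]
  exact h1

namespace NodeK

variable {W : WeierstrassCurve K} [W.IsElliptic] {A : ValuationSubring Kb}
  {w : HeightOneSpectrum (𝓞 K)} {π : K} {N : ℕ} {r : Kb} (D : NodeK W A w π N r)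

set_option quotPrecheck false in
local notation "Wb" => W.baseChange Kb
set_option quotPrecheck false in
local notation "E'" => toOrigin (W.baseChange Kb) r

include D

/-- The points of nonsingular reduction. -/
def e0Sub : AddSubgroup (W.toAffine⁄Kb).Point where
  carrier := {P | E0 A.valuation (E').toAffine ((originEquiv Wb r).symm P)}
  zero_mem' := by
    show E0 A.valuation (E').toAffine ((originEquiv Wb r).symm 0)
    rw [map_zero]; exact e0_zero
  add_mem' {P Q} hP hQ := by
    show E0 A.valuation (E').toAffine ((originEquiv Wb r).symm (P + Q))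
    rw [map_add]
    exact D.node.e0_add hP hQ
  neg_mem' {P} hP := by
    show E0 A.valuation (E').toAffine ((originEquiv Wb r).symm (-P))
    rw [map_neg]
    exact e0_neg.mpr hP

theorem mem_e0Sub {P : (E').toAffine.Point} :
    originEquiv Wb r P ∈ D.e0Sub ↔ E0 A.valuation (E').toAffine P := by
  show E0 A.valuation (E').toAffine ((originEquiv Wb r).symm (originEquiv Wb r P)) ↔ _
  rw [AddEquiv.symm_apply_apply]

/-- Inertia moves every point into nonsingular reduction. -/
theorem smul_sub_mem {σ : Kb ≃ₐ[K] Kb} (hσ : σ ∈ inertGroup K A)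
    (P : (W.toAffine⁄Kb).Point) : σ • P - P ∈ D.e0Sub := by
  have h := nsE0_smul_sub W D.root D.r_le D.node two_ne_zero D.int (mem_inertGroup.1 hσ) P
  obtain ⟨Q, hQ⟩ := (originEquiv Wb r).surjective (σ • P - P)
  rw [← hQ, D.mem_e0Sub]
  rwa [← hQ, nsE0_origin_iff two_ne_zero D.r_le D.node] at h

theorem exists_torsion_not_mem {p : ℕ} (hp : p.Prime) :
    ∃ P : (W.toAffine⁄Kb).Point, p • P = 0 ∧ P ∉ D.e0Sub := by
  obtain ⟨P, hP, hP0⟩ := exists_torsion_not_e0 D.node hp
  exact ⟨originEquiv Wb r P, by rw [← map_nsmul, hP, map_zero], fun h => hP0 (D.mem_e0Sub.1 h)⟩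

theorem exists_branch : ∃ s : Kb, A.valuation (qb (E').toAffine s) < 1 := by
  obtain ⟨t, ht⟩ := IsAlgClosed.exists_root (Polynomial.C 1 * Polynomial.X ^ 2
    + Polynomial.C (E').a₁ * Polynomial.X + Polynomial.C (-(E').a₂)) (by
      rw [Polynomial.degree_quadratic one_ne_zero]; exact two_ne_zero)
  simp only [Polynomial.IsRoot.def, Polynomial.eval_add, Polynomial.eval_mul, Polynomial.eval_C,
    Polynomial.eval_pow, Polynomial.eval_X, one_mul] at ht
  refine ⟨t, ?_⟩
  rw [show qb (E').toAffine t = 0 by simp only [qb]; linear_combination ht, map_zero]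
  exact zero_lt_one

/-- **The points fixed by inertia have finitely many classes** modulo nonsingular reduction. -/
theorem exists_fixed_class :
    ∃ f : (W.toAffine⁄Kb).Point → Option (Option (Fin (N + 1) × Bool)),
      ∀ P Q : (W.toAffine⁄Kb).Point, (∀ σ ∈ inertGroup K A, σ • P = P) →
        (∀ σ ∈ inertGroup K A, σ • Q = Q) → f P = f Q → P - Q ∈ D.e0Sub := by
  classical
  have hN := D.node
  set V := (E').toAffine with hV
  obtain ⟨s₀, hs₀⟩ := D.exists_branch
  have hπ1 : A.valuation (algebraMap K Kb π) < 1 := D.isOver.lt_one π (by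
    rw [D.unif, ← WithZero.exp_zero, WithZero.exp_lt_exp]; omega)
  have hv0 : 0 < A.valuation (algebraMap K Kb π) := A.valuation.pos_iff.2 ((map_ne_zero _).2
    fun h => by
      have := D.unif
      rw [h, map_zero] at this
      exact WithZero.exp_ne_zero this.symm)
  have ha : A.valuation V.a₄ ^ 2 = A.valuation (algebraMap K Kb π) ^ N := by
    have hu : A.valuation (discB Wb r ^ 2 - 64 * V.a₄) = 1 := by
      have hB : A.valuation (discB Wb r ^ 2) = 1 := by
        rw [map_pow, ← toOrigin_disc,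
          show A.valuation (V.a₁ ^ 2 + 4 * V.a₂) = 1 from hN.hdisc, one_pow]
      refine eq_one_of_sub_lt hB ?_
      rw [sub_sub_cancel_left, A.valuation.map_neg]
      exact map_mul_lt_one (natCast_le_one 64) hN.hb
    have hΔ := congrArg A.valuation (toOrigin_Δ_eq (V := Wb) two_ne_zero D.root)
    rw [map_mul, map_pow, hu, mul_one, D.disc] at hΔ
    exact hΔ.symm
  have key : ∀ R : V.Point, ∃ c : Option (Option (Fin (N + 1) × Bool)),
      (∀ σ ∈ inertGroup K A, σ • (originEquiv Wb r R : (W.toAffine⁄Kb).Point) =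
        originEquiv Wb r R) →
      (c = none ∧ E0 A.valuation V R) ∨ (c = some none ∧ E0 A.valuation V (R + hN.T)) ∨
        ∃ (k : Fin (N + 1)) (b : Bool) (g : _) (s : Kb),
          c = some (some (k, b)) ∧ Br A.valuation V R g s ∧
            g = A.valuation (algebraMap K Kb π) ^ k.1 ∧
            (b = true ↔ A.valuation (s - s₀) < 1) := by
    intro R
    by_cases hfix : ∀ σ ∈ inertGroup K A,
        σ • (originEquiv Wb r R : (W.toAffine⁄Kb).Point) = originEquiv Wb r R
    swap
    · exact ⟨none, fun h => absurd h hfix⟩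
    rcases R with _ | ⟨x, y, h⟩
    · exact ⟨none, fun _ => Or.inl ⟨rfl, trivial⟩⟩
    by_cases h1 : 1 ≤ A.valuation x
    · exact ⟨none, fun _ => Or.inl ⟨rfl, h1⟩⟩
    by_cases h2 : A.valuation x ≤ A.valuation V.a₄
    · exact ⟨some none, fun _ => Or.inr (Or.inl ⟨rfl, hN.e0_add_T_of_le h h2⟩)⟩
    rw [not_le] at h1 h2
    have hbr := hN.br_self h h2 h1
    have hx : x ≠ 0 := A.valuation.pos_iff.mp (lt_of_le_of_lt zero_le h2)
    obtain ⟨hXY, hPe⟩ := originEquiv_some h
    obtain ⟨z, hz⟩ : ∃ z, fy (Wb).toAffine (x + r) (y + halfY Wb r) = z := ⟨_, rfl⟩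
    have hb := hbr
    rw [br_some] at hb
    have hvz : A.valuation z = A.valuation x := by
      rw [← hz, fy_origin two_ne_zero, fy, hN.h₃, add_zero,
        show 2 * y + V.a₁ * x = (2 * (y / x) + V.a₁) * x by field_simp, map_mul,
        hN.unit_root hb.2.2.2.2, one_mul]
    have hz0 : z ≠ 0 := A.valuation.pos_iff.mp (hvz ▸ A.valuation.pos_iff.mpr hx)
    obtain ⟨k, hk⟩ := exists_zpow_of_fixed D.isOver D.unif hz0 fun σ hσ => by
      obtain ⟨h', he⟩ := smul_some (σ := σ) W hXY
      have := hfix σ hσ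
      rw [hPe] at this
      obtain ⟨e1, e2⟩ := Affine.Point.some.inj (he.symm.trans this)
      have hc : ∀ a : K, σ (algebraMap K Kb a) = algebraMap K Kb a := σ.commutes
      rw [← hz]
      simp only [fy, map_add, map_mul, map_ofNat]
      have hx' : σ (x + r) = x + r := e1
      have hy' : σ (y + halfY Wb r) = y + halfY Wb r := e2
      rw [← map_add σ x r, ← map_add σ y, hx', hy', show σ (Wb).toAffine.a₁ = (Wb).toAffine.a₁
        from hc W.a₁, show σ (Wb).toAffine.a₃ = (Wb).toAffine.a₃ from hc W.a₃]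
    rw [hvz] at hk
    obtain ⟨n, hn⟩ : ∃ n : ℕ, k = n := Int.eq_ofNat_of_zero_le (by
      by_contra hneg
      rw [hk] at h1
      exact absurd h1 (not_lt.mpr (one_le_zpow_of_nonpos₀ hv0 hπ1.le (by omega))))
    rw [hn, zpow_natCast] at hk
    have hlt : n < N + 1 := by
      by_contra hge
      have h3 := pow_lt_pow_left₀ h2 zero_le two_ne_zero
      rw [ha, hk, ← pow_mul] at h3
      exact absurd h3 (not_lt.mpr (pow_le_pow_right_of_le_one' hπ1.le (by omega)))
    exact ⟨some (some (⟨n, hlt⟩, decide (A.valuation (y / x - s₀) < 1))), fun _ => Or.inr (Or.inr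
      ⟨_, _, _, _, rfl, hbr, hk, decide_eq_true_iff⟩)⟩
  choose f hf using key
  refine ⟨fun P => f ((originEquiv Wb r).symm P), fun P Q hP hQ h => ?_⟩
  obtain ⟨P, rfl⟩ := (originEquiv Wb r).surjective P
  obtain ⟨Q, rfl⟩ := (originEquiv Wb r).surjective Q
  rw [← map_sub, D.mem_e0Sub]
  simp only [AddEquiv.symm_apply_apply] at h
  rcases hf P hP with ⟨hc, hP0⟩ | ⟨hc, hP0⟩ | ⟨i, b, g, s, hc, hbP, hg, hb⟩ <;>
    rcases hf Q hQ with ⟨hc', hQ0⟩ | ⟨hc', hQ0⟩ | ⟨i', b', g', s', hc', hbQ, hg', hb'⟩ <;>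
    rw [hc, hc'] at h <;> simp only [Option.some.injEq, reduceCtorEq] at h
  · exact hN.e0_sub hP0 hQ0
  · have := hN.e0_sub hP0 hQ0
    rwa [add_sub_add_right_eq_sub] at this
  simp only [Prod.mk.injEq] at h
  obtain ⟨rfl, rfl⟩ := h
  obtain rfl : g' = g := hg'.trans hg.symm
  have hs : A.valuation (qb V s) < 1 := by
    obtain ⟨a, c, hac, e⟩ := hbP.exists_eq
    have := hbP; rw [e, br_some] at this; exact this.2.2.2.2
  have hs' : A.valuation (qb V s') < 1 := by
    obtain ⟨a, c, hac, e⟩ := hbQ.exists_eq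
    have := hbQ; rw [e, br_some] at this; exact this.2.2.2.2
  have hss : A.valuation (s - s') < 1 := by
    by_cases hv : A.valuation (s - s₀) < 1
    · have := hb'.mp (hb.mpr hv)
      rw [show s - s' = (s - s₀) - (s' - s₀) by ring]; exact A.valuation.map_sub_lt hv this
    · have hv' : ¬ A.valuation (s' - s₀) < 1 := fun h' => hv (hb.mp (hb'.mpr h'))
      have a := (Node.root_cases hs₀ hs).resolve_left hv
      have c := (Node.root_cases hs₀ hs').resolve_left hv'
      rw [show s - s' = (s - (-V.a₁ - s₀)) - (s' - (-V.a₁ - s₀)) by ring]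
      exact A.valuation.map_sub_lt a c
  exact hN.sub_e0_of_br hbP (Node.br_congr hbQ hs (by rwa [A.valuation.map_sub_swap]))

end NodeK

end FA.OpenImageNF

end
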