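import Fermat.Agent.IsogenyNF.OrderCount
import Fermat.Agent.IsogenyNF.Transvection
import Fermat.Agent.Root.PadicImageOpen

/-!
# Bases of the Tate modules over a number field

Compatible parametrisations of the `p`-power torsion by `ℤ_p²`, the matrices of Galois in them,
continuity, and no stable line when the invariant is not an algebraic integer.
-/

set_option autoImplicit false
set_option linter.unusedSectionVars false

noncomputable section

namespace FA.OpenImageNF

open WeierstrassCurve Matrix FA.IsogenyNF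
open scoped WeierstrassCurve.Affine Topology

universe u v

variable {K : Type u} [Field K] [NumberField K] {Kb : Type v} [Field Kb] [DecidableEq Kb]
  [Algebra K Kb] [CharZero Kb] [IsAlgClosed Kb] [Algebra.IsAlgebraic K Kb]
  {p : ℕ} [hp : Fact p.Prime]

local notation "M2" => Matrix (Fin 2) (Fin 2)

variable (Kb p) in
/-- Compatible parametrisations of the `p`-power torsion. -/
structure TateGen (E : WeierstrassCurve K) [E.IsElliptic] where
  /-- the parametrisation of the torsion of order `p ^ n` -/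
  φ : ℕ → (Fin 2 → ℤ_[p]) →+ (E.toAffine⁄Kb).Point
  surj : ∀ n x, p ^ n • x = 0 → ∃ v, φ n v = x
  ker : ∀ n v, φ n v = 0 ↔ ∀ i, PadicInt.toZModPow n (v i) = 0
  compat : ∀ n v, p • φ (n + 1) v = φ n v

variable (E : WeierstrassCurve K) [E.IsElliptic]

set_option quotPrecheck false in
local notation "PtE" => (E.toAffine⁄Kb).Point

/-- The torsion points are divisible by `p` among the torsion points. -/
theorem exists_div (n : ℕ) {x : PtE} (hx : p ^ n • x = 0) :
    ∃ y : PtE, p ^ (n + 1) • y = 0 ∧ p • y = x := by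
  obtain ⟨P, Q, h⟩ := exists_torGen_level (Kb := Kb) E
    (pow_ne_zero (n + 1) hp.out.ne_zero)
  obtain ⟨w, hw⟩ := h.coord_surj (R := x) (by rw [pow_succ', mul_nsmul', hx, nsmul_zero])
  have hn : p ^ (n + 1) ≠ 0 := pow_ne_zero _ hp.out.ne_zero
  have : NeZero (p ^ (n + 1)) := ⟨hn⟩
  have h0 : p ^ n • w = 0 := h.coord_injective hn (by rw [map_nsmul, hw, hx, map_zero])
  have hd : ∀ i, ∃ c : ℕ, w i = p • (c : ZMod (p ^ (n + 1))) := fun i => by
    have h1 : p ^ (n + 1) ∣ p ^ n * (w i).val := by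
      rw [← ZMod.natCast_eq_zero_iff, Nat.cast_mul, ZMod.natCast_zmod_val, ← nsmul_eq_mul]
      exact congrFun h0 i
    obtain ⟨c, hc⟩ := Nat.dvd_of_mul_dvd_mul_left (pow_pos hp.out.pos n)
      ((pow_succ p n).symm.dvd.trans h1)
    exact ⟨c, by rw [nsmul_eq_mul, ← Nat.cast_mul, ← hc, ZMod.natCast_zmod_val]⟩
  choose c hc using hd
  refine ⟨h.coord fun i => (c i : ZMod _), h.nsmul_coord _, ?_⟩
  rw [← map_nsmul, ← hw]
  exact congrArg h.coord (funext fun i => (hc i).symm)

theorem exists_seq {x : PtE} (hx : p • x = 0) : ∃ P : ℕ → PtE,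
    P 1 = x ∧ (∀ n, p ^ n • P n = 0) ∧ ∀ n, p • P (n + 1) = P n := by
  have hstep : ∀ (n : ℕ) (z : {z : PtE // p ^ n • z = 0}),
      ∃ y : {z : PtE // p ^ (n + 1) • z = 0}, p • y.1 = z.1 := fun n z => by
    obtain ⟨y, h1, h2⟩ := exists_div E n z.2
    exact ⟨⟨y, h1⟩, h2⟩
  choose g hg using hstep
  let S : ∀ k : ℕ, {z : PtE // p ^ (k + 1) • z = 0} :=
    fun k => Nat.rec ⟨x, by rw [pow_one]; exact hx⟩ (fun k z => g (k + 1) z) k
  refine ⟨fun n => match n with | 0 => 0 | k + 1 => (S k).1, rfl, fun n => ?_,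
    fun n => ?_⟩
  · cases n with
    | zero => exact nsmul_zero _
    | succ k => exact (S k).2
  · cases n with
    | zero => exact hx
    | succ k => exact hg (k + 1) (S k)

variable (Kb p) in
theorem exists_tateGen : Nonempty (TateGen Kb p E) := by
  classical
  obtain ⟨P₁, Q₁, h₁⟩ := exists_torGen_level (Kb := Kb) E hp.out.ne_zero
  have hb : ∀ i : Fin 2, p • (![P₁, Q₁] i) = 0 := fun i => by
    fin_cases i
    · exact h₁.left
    · exact h₁.right
  choose P hP1 hP0 hPc using fun i => exists_seq E (hb i)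
  let f : ∀ (n : ℕ) (_i : Fin 2), ZMod (p ^ n) →+ PtE := fun n i =>
    ZMod.lift (p ^ n) ⟨zmultiplesHom _ (P i n), by
      show ((p ^ n : ℕ) : ℤ) • P i n = 0
      rw [natCast_zsmul, hP0]⟩
  have hf : ∀ n i (k : ℕ), f n i (k : ZMod (p ^ n)) = k • P i n := fun n i k => by
    rw [← Int.cast_natCast k, ZMod.lift_coe]
    simp
  let φ : ℕ → (Fin 2 → ℤ_[p]) →+ PtE := fun n =>
    ∑ i, ((f n i).comp (PadicInt.toZModPow n).toAddMonoidHom).comp
      (Pi.evalAddMonoidHom (fun _ : Fin 2 => ℤ_[p]) i)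
  have hφ : ∀ n v, φ n v =
      f n 0 (PadicInt.toZModPow n (v 0)) + f n 1 (PadicInt.toZModPow n (v 1)) :=
    fun n v => by simp [φ, Fin.sum_univ_two]
  have hcomp : ∀ n v, p • φ (n + 1) v = φ n v := fun n v => by
    have : ∀ i, p • f (n + 1) i (PadicInt.toZModPow (n + 1) (v i)) =
        f n i (PadicInt.toZModPow n (v i)) := fun i => by
      have : NeZero (p ^ (n + 1)) := ⟨pow_ne_zero _ hp.out.ne_zero⟩
      obtain ⟨k, hk⟩ : ∃ k : ℕ, (k : ZMod (p ^ (n + 1))) = PadicInt.toZModPow (n + 1) (v i) :=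
        ⟨_, ZMod.natCast_zmod_val _⟩
      rw [← PadicInt.cast_toZModPow n (n + 1) (Nat.le_succ n) (v i), ← hk, hf,
        ZMod.cast_natCast (pow_dvd_pow p (Nat.le_succ n)), hf, smul_comm, hPc]
    rw [hφ, hφ, nsmul_add, this, this]
  have hpow : ∀ n k v, p ^ k • φ (n + k) v = φ n v := fun n k v => by
    induction k with
    | zero => simp
    | succ k ih => rw [pow_succ, mul_nsmul', ← add_assoc, hcomp, ih]
  have hsurj : ∀ n x, p ^ n • x = 0 → ∃ v, φ n v = x := by
    intro n
    induction n with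
    | zero => exact fun x hx => ⟨0, by rw [map_zero]; simpa using hx.symm⟩
    | succ n ih =>
      intro x hx
      obtain ⟨v, hv⟩ := ih (p • x) (by rw [← mul_nsmul', ← pow_succ, hx])
      obtain ⟨i, j, hij⟩ := h₁.span (x - φ (n + 1) v) (by rw [nsmul_sub, hcomp, hv, sub_self])
      have hz : ∀ (a : Fin 2) (k : ℤ), f 1 a ((k : ℤ_[p]) |> PadicInt.toZModPow 1) =
          k • ![P₁, Q₁] a := fun a k => by
        rw [map_intCast, ZMod.lift_coe]
        show k • P a 1 = _
        rw [hP1]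
      have hy : x - φ (n + 1) v = φ 1 ![(i : ℤ_[p]), (j : ℤ_[p])] := by
        have hi := hz 0 i
        have hj := hz 1 j
        simp only [Matrix.cons_val_zero, Matrix.cons_val_one] at hi hj
        rw [hij, hφ]
        simp only [Matrix.cons_val_zero, Matrix.cons_val_one]
        rw [hi, hj]
      refine ⟨v + p ^ n • ![(i : ℤ_[p]), (j : ℤ_[p])], ?_⟩
      rw [map_add, map_nsmul, add_comm n 1, hpow 1 n, ← hy, add_comm 1 n, add_sub_cancel]
  refine ⟨⟨φ, hsurj, fun n v => ?_, hcomp⟩⟩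
  -- the kernel, by counting
  have hn : p ^ n ≠ 0 := pow_ne_zero _ hp.out.ne_zero
  have : NeZero (p ^ n) := ⟨hn⟩
  have hcard : Nat.card {x : PtE // p ^ n • x = 0} = (p ^ n) ^ 2 := TorGen.natCard hn
  have : Finite {x : PtE // p ^ n • x = 0} :=
    Nat.finite_of_card_ne_zero (by rw [hcard]; exact pow_ne_zero 2 hn)
  let ψ : (Fin 2 → ZMod (p ^ n)) → {x : PtE // p ^ n • x = 0} :=
    fun a => ⟨f n 0 (a 0) + f n 1 (a 1), by
      have h0 : ∀ i (c : ZMod (p ^ n)), p ^ n • f n i c = 0 := fun i c => by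
        rw [← map_nsmul, nsmul_eq_mul, ZMod.natCast_self, zero_mul, map_zero]
      rw [nsmul_add, h0, h0, add_zero]⟩
  have hψs : Function.Surjective ψ := fun x => by
    obtain ⟨w, hw⟩ := hsurj n x.1 x.2
    exact ⟨fun i => PadicInt.toZModPow n (w i), Subtype.ext ((hφ n w).symm.trans hw)⟩
  have hψ := (Nat.bijective_iff_surjective_and_card ψ).mpr ⟨hψs, by
    rw [hcard, Nat.card_fun, Nat.card_zmod, Nat.card_fin]⟩
  constructor
  · intro h
    have h0 : ψ (fun i => PadicInt.toZModPow n (v i)) = ψ 0 :=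
      Subtype.ext (((hφ n v).symm.trans h).trans (by simp [ψ]))
    exact congrFun (hψ.1 h0)
  · intro h
    rw [hφ, h, h, map_zero, map_zero, add_zero]

namespace TateGen

variable {E}
variable (B : TateGen Kb p E)

theorem nsmul_phi (n : ℕ) (v : Fin 2 → ℤ_[p]) : p ^ n • B.φ n v = 0 := by
  rw [← map_nsmul, B.ker]
  intro i
  rw [Pi.smul_apply, nsmul_eq_mul, map_mul, map_natCast, ZMod.natCast_self, zero_mul]

theorem phi_eq_iff {n : ℕ} {v w : Fin 2 → ℤ_[p]} :
    B.φ n v = B.φ n w ↔ ∀ i, PadicInt.toZModPow n (v i) = PadicInt.toZModPow n (w i) := by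
  rw [← sub_eq_zero, ← map_sub, B.ker]
  simp only [Pi.sub_apply, map_sub, sub_eq_zero]

theorem pow_compat (n k : ℕ) (v : Fin 2 → ℤ_[p]) : p ^ k • B.φ (n + k) v = B.φ n v := by
  induction k with
  | zero => simp
  | succ k ih => rw [pow_succ, mul_nsmul', ← add_assoc, B.compat, ih]

/-- A compatible sequence of torsion points comes from a vector. -/
theorem exists_vec {x : ℕ → PtE} (hx : ∀ n, p ^ n • x n = 0) (hc : ∀ n, p • x (n + 1) = x n) :
    ∃ c, ∀ n, B.φ n c = x n := by
  choose v hv using fun n => B.surj n (x n) (hx n)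
  have hxc : ∀ m k, p ^ k • x (m + k) = x m := fun m k => by
    induction k with
    | zero => simp
    | succ k ih => rw [pow_succ, mul_nsmul', ← add_assoc, hc, ih]
  have hcau : ∀ {m n}, m ≤ n → ∀ i,
      PadicInt.toZModPow m (v n i) = PadicInt.toZModPow m (v m i) := fun {m n} hmn => by
    obtain ⟨k, rfl⟩ := Nat.exists_eq_add_of_le hmn
    exact B.phi_eq_iff.mp (by rw [hv, ← B.pow_compat m k, hv, hxc])
  choose c hc' using fun i => (IsAdicComplete.toIsPrecomplete :
      IsPrecomplete (IsLocalRing.maximalIdeal ℤ_[p]) ℤ_[p]).prec (f := fun n => v n i)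
      fun {m n} hmn => by
    rw [SModEq.sub_mem, smul_eq_mul, Ideal.mul_top, PadicInt.maximalIdeal_eq_span_p,
      Ideal.span_singleton_pow, ← PadicInt.ker_toZModPow, RingHom.mem_ker, map_sub, hcau hmn i,
      sub_self]
  refine ⟨c, fun n => (hv n).symm.trans (B.phi_eq_iff.mpr fun i => ?_) |>.symm⟩
  have h := hc' i n
  rw [SModEq.sub_mem, smul_eq_mul, Ideal.mul_top, PadicInt.maximalIdeal_eq_span_p,
    Ideal.span_singleton_pow, ← PadicInt.ker_toZModPow, RingHom.mem_ker, map_sub,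
    sub_eq_zero] at h
  exact h

theorem phi_mulVec_congr {n : ℕ} {v w : Fin 2 → ℤ_[p]} (M : M2 ℤ_[p])
    (h : B.φ n v = B.φ n w) : B.φ n (M *ᵥ v) = B.φ n (M *ᵥ w) := by
  have h' := B.phi_eq_iff.mp h
  refine B.phi_eq_iff.mpr fun i => ?_
  rw [RingHom.map_mulVec, RingHom.map_mulVec, show (PadicInt.toZModPow n) ∘ v =
    (PadicInt.toZModPow n) ∘ w from funext h']

theorem exists_matrix (σ : Kb ≃ₐ[K] Kb) :
    ∃ M : M2 ℤ_[p], ∀ n v, σ • B.φ n v = B.φ n (M *ᵥ v) := by
  choose c hc using fun j : Fin 2 => B.exists_vec (x := fun n => σ • B.φ n (Pi.single j 1))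
    (fun n => by rw [← smul_nsmul', B.nsmul_phi]; exact smul_zero σ)
    (fun n => by rw [← smul_nsmul', B.compat])
  refine ⟨Matrix.of fun i j => c j i, fun n v => ?_⟩
  have : NeZero (p ^ n) := ⟨pow_ne_zero _ hp.out.ne_zero⟩
  let k : Fin 2 → ℕ := fun i => (PadicInt.toZModPow n (v i)).val
  let v' : Fin 2 → ℤ_[p] := fun i => (k i : ℤ_[p])
  have hv : B.φ n v = B.φ n v' := B.phi_eq_iff.mpr fun i => by
    show _ = PadicInt.toZModPow n (k i : ℤ_[p])
    rw [map_natCast, ZMod.natCast_zmod_val]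
  have hv' : v' = k 0 • Pi.single 0 1 + k 1 • Pi.single 1 1 := by
    funext i
    fin_cases i <;> simp [v', nsmul_eq_mul]
  rw [hv, B.phi_mulVec_congr _ hv, hv', mulVec_add, mulVec_smul, mulVec_smul, mulVec_single_one,
    mulVec_single_one, map_add, map_nsmul, map_nsmul, smul_add, smul_nsmul', smul_nsmul']
  have e : ∀ j, (Matrix.of fun i j => c j i).col j = c j := fun j => rfl
  rw [e, e, map_add, map_nsmul, map_nsmul, hc, hc]

/-- Matrices are determined by their action on the torsion. -/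
theorem ext_phi {M M' : M2 ℤ_[p]} (h : ∀ n v, B.φ n (M *ᵥ v) = B.φ n (M' *ᵥ v)) : M = M' := by
  ext i j
  refine PadicInt.ext_of_toZModPow.mp fun n => ?_
  have := B.phi_eq_iff.mp (h n (Pi.single j 1)) i
  rwa [mulVec_single_one, mulVec_single_one] at this

/-- The `p`-adic representation. -/
def rep : (Kb ≃ₐ[K] Kb) →* M2 ℤ_[p] where
  toFun σ := (B.exists_matrix σ).choose
  map_one' := B.ext_phi fun n v => by
    rw [← (B.exists_matrix 1).choose_spec, one_smul, one_mulVec]
  map_mul' σ τ := B.ext_phi fun n v => by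
    rw [← (B.exists_matrix (σ * τ)).choose_spec, mul_smul, (B.exists_matrix τ).choose_spec,
      (B.exists_matrix σ).choose_spec, mulVec_mulVec]

theorem rep_spec (σ : Kb ≃ₐ[K] Kb) (n : ℕ) (v : Fin 2 → ℤ_[p]) :
    σ • B.φ n v = B.φ n (B.rep σ *ᵥ v) :=
  (B.exists_matrix σ).choose_spec n v

/-- An element fixing the torsion of order `p ^ n` is congruent to one. -/
theorem rep_congr_one {σ : Kb ≃ₐ[K] Kb} {n : ℕ} (h : ∀ x : PtE, p ^ n • x = 0 → σ • x = x) :
    redZ n (B.rep σ) = 1 := by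
  ext i j
  have h' := B.phi_eq_iff.mp
    ((B.rep_spec σ n (Pi.single j 1)).symm.trans (h _ (B.nsmul_phi n _))) i
  rw [mulVec_single_one] at h'
  rw [RingHom.mapMatrix_apply, Matrix.map_apply]
  exact h'.trans (by rw [Matrix.one_apply, Pi.single_apply, apply_ite (PadicInt.toZModPow n),
    map_one, map_zero])

/-- **The Galois action on the Tate module is continuous.** -/
theorem continuous_rep : Continuous B.rep := by
  refine continuous_pi fun i => continuous_pi fun j => continuous_iff_continuousAt.mpr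
    fun σ₀ => Metric.tendsto_nhds.mpr fun ε hε => ?_
  obtain ⟨n, hn⟩ := PadicInt.exists_pow_neg_lt p hε
  set L := torField Kb E (p ^ n)
  have : FiniteDimensional K L := by
    have hfin : ({P : PtE | p ^ n • P = 0}).Finite :=
      finite_nsmul_eq_zero (pow_ne_zero n hp.out.ne_zero)
    have := ((hfin.image FA.ClassNumberOne.xP).union (hfin.image FA.ClassNumberOne.yP)).to_subtype
    exact IntermediateField.finiteDimensional_adjoin fun x _ => Algebra.IsIntegral.isIntegral x
  have hmem : ∀ᶠ σ in 𝓝 σ₀, σ₀⁻¹ * σ ∈ L.fixingSubgroup :=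
    ((IntermediateField.fixingSubgroup_isOpen L).preimage (continuous_const_mul σ₀⁻¹)).mem_nhds
      (by simp)
  filter_upwards [hmem] with σ hσ
  refine lt_of_le_of_lt ?_ hn
  rw [dist_eq_norm, PadicInt.norm_le_pow_iff_mem_span_pow, ← PadicInt.ker_toZModPow,
    RingHom.mem_ker, map_sub, sub_eq_zero, show B.rep σ = B.rep σ₀ * B.rep (σ₀⁻¹ * σ) by
      rw [← map_mul, mul_inv_cancel_left]]
  have e := congrArg (fun M : MatN p n => (redZ n (B.rep σ₀) * M) i j)
    (B.rep_congr_one (n := n) fun x hx => smul_torField E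
      ((IntermediateField.mem_fixingSubgroup_iff L _).mp hσ) hx)
  rw [← map_mul, mul_one] at e
  exact e

/-- **The image of the Tate module is closed.** -/
theorem isClosed_range_rep : IsClosed (Set.range B.rep) := by
  have : IsAlgClosure K Kb := ⟨inferInstance, inferInstance⟩
  have : IsGalois K Kb := IsAlgClosure.isGalois K Kb
  exact (isCompact_range (continuous_rep B)).isClosed

/-- **No line of the Tate module is stable** when the invariant is not an algebraic integer. -/
theorem exists_not_stable (hj : ¬ IsIntegral ℤ E.j) {e : Fin 2 → ℤ_[p]} (he : e ≠ 0) :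
    ∃ σ, e 0 * (B.rep σ *ᵥ e) 1 - e 1 * (B.rep σ *ᵥ e) 0 ≠ 0 := by
  by_contra! hall
  obtain ⟨k, f, hef, a, ha⟩ : ∃ (k : ℕ) (f : Fin 2 → ℤ_[p]),
      e = (p : ℤ_[p]) ^ k • f ∧ ∃ a, IsUnit (f a) := by
    classical
    have hex : ∃ k i, ¬ (p : ℤ_[p]) ^ (k + 1) ∣ e i := by
      by_contra! h
      refine he (funext fun i => PadicInt.ext_of_toZModPow.mp fun k => ?_)
      rw [Pi.zero_apply, map_zero, ← RingHom.mem_ker, PadicInt.ker_toZModPow,
        Ideal.mem_span_singleton]
      exact (pow_dvd_pow _ k.le_succ).trans (h k i)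
    obtain ⟨a, ha⟩ := Nat.find_spec hex
    have hall : ∀ i, (p : ℤ_[p]) ^ Nat.find hex ∣ e i := fun i => by
      rcases hk : Nat.find hex with _ | k
      · rw [pow_zero]; exact one_dvd _
      · have := Nat.find_min hex (show k < Nat.find hex by omega)
        push Not at this
        exact this i
    choose f hf using hall
    refine ⟨_, f, funext fun i => hf i, a, ?_⟩
    by_contra hu
    rw [← mem_nonunits_iff, ← IsLocalRing.mem_maximalIdeal, PadicInt.maximalIdeal_eq_span_p,
      Ideal.mem_span_singleton] at hu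
    refine ha ?_
    rw [hf a, pow_succ]
    exact mul_dvd_mul_left _ hu
  have hcross : ∀ σ, f 0 * (B.rep σ *ᵥ f) 1 - f 1 * (B.rep σ *ᵥ f) 0 = 0 := fun σ => by
    have h := hall σ
    rw [hef, mulVec_smul] at h
    simp only [Pi.smul_apply, smul_eq_mul] at h
    have hpk : ((p : ℤ_[p]) ^ k) * ((p : ℤ_[p]) ^ k) ≠ 0 :=
      mul_ne_zero (pow_ne_zero _ (Nat.cast_ne_zero.2 hp.out.ne_zero))
        (pow_ne_zero _ (Nat.cast_ne_zero.2 hp.out.ne_zero))
    exact (mul_eq_zero.1 (show (p : ℤ_[p]) ^ k * (p : ℤ_[p]) ^ k *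
      (f 0 * (B.rep σ *ᵥ f) 1 - f 1 * (B.rep σ *ᵥ f) 0) = 0 by linear_combination h)).resolve_left
        hpk
  -- the points of the line
  have hord : ∀ n, addOrderOf (B.φ n f) = p ^ n := fun n => by
    rcases n with _ | n
    · rw [pow_zero, AddMonoid.addOrderOf_eq_one_iff, ← one_nsmul (B.φ 0 f), ← pow_zero p,
        B.nsmul_phi]
    refine addOrderOf_eq_prime_pow (fun h0 => ?_) (B.nsmul_phi _ _)
    rw [← map_nsmul, B.ker] at h0
    have h1 := h0 a
    rw [Pi.smul_apply, nsmul_eq_mul, map_mul, map_natCast] at h1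
    obtain ⟨u, hu⟩ := ha.map (PadicInt.toZModPow (p := p) (n + 1))
    rw [← hu, Units.mul_left_eq_zero, ZMod.natCast_eq_zero_iff] at h1
    exact absurd (Nat.le_of_dvd (pow_pos hp.out.pos n) h1)
      (not_le.2 (Nat.pow_lt_pow_succ hp.out.one_lt))
  obtain ⟨ψ⟩ : Nonempty (K →+* ℂ) := inferInstance
  have hfin := finite_stable_points (Kb := Kb) E ψ fun h => hj (isIntegral_j E h)
  obtain ⟨N, hN⟩ := (hfin.image addOrderOf).bddAbove
  have hN' := hN ⟨B.φ N f, ⟨by rw [hord]; exact pow_pos hp.out.pos _, fun σ => ?_⟩, rfl⟩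
  · rw [hord] at hN'
    exact absurd hN' (not_le.2 (Nat.lt_pow_self hp.out.one_lt))
  obtain ⟨u, hu⟩ := ha.exists_left_inv
  have hc : B.rep σ *ᵥ f = ((B.rep σ *ᵥ f) a * u) • f := funext fun i => by
    have h := hcross σ
    rw [Pi.smul_apply, smul_eq_mul]
    fin_cases a <;> fin_cases i <;>
      simp only [Fin.zero_eta, Fin.mk_one, Fin.isValue] at hu ⊢
    · linear_combination -(B.rep σ *ᵥ f) 0 * hu
    · linear_combination u * h - (B.rep σ *ᵥ f) 1 * hu
    · linear_combination -u * h - (B.rep σ *ᵥ f) 0 * hu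
    · linear_combination -(B.rep σ *ᵥ f) 1 * hu
  set c := (B.rep σ *ᵥ f) a * u
  have : NeZero (p ^ N) := ⟨pow_ne_zero _ hp.out.ne_zero⟩
  refine AddSubgroup.mem_zmultiples_iff.2 ⟨((PadicInt.toZModPow N c).val : ℤ), ?_⟩
  rw [natCast_zsmul, ← map_nsmul, B.rep_spec, hc, B.phi_eq_iff]
  intro i
  simp

variable {E' : WeierstrassCurve K} [E'.IsElliptic]

/-- Transport by an isomorphism of the points. -/
def push (e : PtE ≃+ (E'.toAffine⁄Kb).Point) : TateGen Kb p E' where
  φ n := e.toAddMonoidHom.comp (B.φ n)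
  surj n x hx := by
    obtain ⟨v, hv⟩ := B.surj n (e.symm x) (by rw [← map_nsmul, hx, map_zero])
    exact ⟨v, by show e (B.φ n v) = x; rw [hv, e.apply_symm_apply]⟩
  ker n v := by
    show e (B.φ n v) = 0 ↔ _
    rw [map_eq_zero_iff e e.injective, B.ker]
  compat n v := by
    show p • e (B.φ (n + 1) v) = e (B.φ n v)
    rw [← map_nsmul, B.compat]

theorem push_rep (e : PtE ≃+ (E'.toAffine⁄Kb).Point) {σ : Kb ≃ₐ[K] Kb}
    (he : ∀ P, e (σ • P) = σ • e P) : (B.push e).rep σ = B.rep σ :=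
  (B.push e).ext_phi fun n v => by
    rw [← (B.push e).rep_spec]
    show σ • e (B.φ n v) = e (B.φ n _)
    rw [← he, B.rep_spec]

end TateGen

end FA.OpenImageNF

end
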