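import Fermat.Agent.IsogenyNF.Transvection
import Fermat.Agent.Local.Inertia

/-!
# The values of the elements fixed by inertia

Let a valuation ring of an algebraic closure lie over a finite place `v` of a number field. An
element fixed by all the automorphisms which preserve the ring and fix its residues has the value
of an element of the number field: by compactness inertia of a finite Galois layer already fixes it
and the ramification index of `v` in the layer is the order of that group.
-/

set_option autoImplicit false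
set_option linter.unusedSectionVars false

noncomputable section

namespace FA.OpenImageNF

open NumberField IsDedekindDomain FA.Local IntermediateField

universe u v

variable {K : Type u} [Field K] [NumberField K] {Kb : Type v} [Field Kb]
  [Algebra K Kb] [CharZero Kb] [IsAlgClosed Kb] [Algebra.IsAlgebraic K Kb]

/-- A valuation ring over a place. -/
structure OverPlace (A : ValuationSubring Kb) (w : HeightOneSpectrum (𝓞 K)) : Prop where
  le_one : ∀ x : K, w.valuation K x ≤ 1 → A.valuation (algebraMap K Kb x) ≤ 1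
  lt_one : ∀ x : K, w.valuation K x < 1 → A.valuation (algebraMap K Kb x) < 1

variable (Kb) in
theorem exists_overPlace (w : HeightOneSpectrum (𝓞 K)) :
    ∃ A : ValuationSubring Kb, OverPlace A w := by
  obtain ⟨A, hA, hloc⟩ := IsLocalRing.exists_factor_valuationRing
    ((algebraMap K Kb).comp (w.valuation K).valuationSubring.subtype)
  have hle : ∀ x : K, w.valuation K x ≤ 1 → A.valuation (algebraMap K Kb x) ≤ 1 :=
    fun x hx => (A.valuation_le_one_iff _).2 (hA ⟨x, hx⟩)
  refine ⟨A, hle, fun x hx => lt_of_le_of_ne (hle x hx.le) fun h1 => hx.ne ?_⟩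
  have hu := hloc.map_nonunit (⟨x, hx.le⟩ : (w.valuation K).valuationSubring)
    ((A.valuation_eq_one_iff ⟨_, hA ⟨x, hx.le⟩⟩).2 h1)
  obtain ⟨y, hy⟩ := hu.exists_right_inv
  have hy' := congrArg (w.valuation K) (congrArg Subtype.val hy)
  rw [MulMemClass.coe_mul, map_mul] at hy'
  simp only [OneMemClass.coe_one, map_one] at hy'
  exact le_antisymm hx.le (hy'.symm.le.trans (mul_le_of_le_one_right' y.2))

variable {A : ValuationSubring Kb} {w : HeightOneSpectrum (𝓞 K)}

theorem OverPlace.eq_one (hA : OverPlace A w) {x : K} (hx : w.valuation K x = 1) :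
    A.valuation (algebraMap K Kb x) = 1 := by
  refine le_antisymm (hA.le_one x hx.le) ?_
  have h := hA.le_one x⁻¹ (by rw [map_inv₀, hx, inv_one])
  rwa [map_inv₀, map_inv₀, inv_le_one₀ (A.valuation.pos_iff.2 ((map_ne_zero _).2 fun h0 => by
    rw [h0, map_zero] at hx; exact zero_ne_one hx))] at h

variable (K) in
/-- The automorphisms which preserve the valuation and fix residues. -/
def inertGroup (A : ValuationSubring Kb) : Subgroup (Kb ≃ₐ[K] Kb) where
  carrier := {σ | Inert A.valuation σ}
  one_mem' := ⟨fun _ => rfl, fun x _ => by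
    rw [AlgEquiv.one_apply, sub_self, map_zero]; exact zero_lt_one⟩
  mul_mem' {σ τ} hσ hτ := ⟨fun x => by rw [AlgEquiv.mul_apply, hσ.map_eq, hτ.map_eq], fun x hx => by
    rw [AlgEquiv.mul_apply, ← sub_add_sub_cancel (σ (τ x)) (σ x), ← map_sub σ]
    refine A.valuation.map_add_lt ?_ (hσ.sub_lt x hx)
    rw [hσ.map_eq]
    exact hτ.sub_lt x hx⟩
  inv_mem' {σ} hσ := by
    have he : ∀ x, A.valuation (σ⁻¹ x) = A.valuation x := fun x => by
      rw [← hσ.map_eq (σ⁻¹ x), show σ (σ⁻¹ x) = x from σ.apply_symm_apply x]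
    refine ⟨he, fun x hx => ?_⟩
    rw [A.valuation.map_sub_swap, show x - σ⁻¹ x = σ (σ⁻¹ x) - σ⁻¹ x by
      rw [show σ (σ⁻¹ x) = x from σ.apply_symm_apply x]]
    exact hσ.sub_lt _ (by rwa [he])

theorem mem_inertGroup {σ : Kb ≃ₐ[K] Kb} :
    σ ∈ inertGroup K A ↔ Inert A.valuation σ :=
  Iff.rfl

/-- By compactness, what inertia fixes is fixed by inertia on some finite layer. -/
theorem exists_layer {x : Kb} (hx : ∀ σ ∈ inertGroup K A, σ x = x) :
    ∃ F : FiniteGaloisIntermediateField K Kb, x ∈ F.toIntermediateField ∧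
      ∀ σ : Kb ≃ₐ[K] Kb, (∀ a ∈ F.toIntermediateField, A.valuation (σ a) = A.valuation a ∧
        (A.valuation a ≤ 1 → A.valuation (σ a - a) < 1)) → σ x = x := by
  have : IsAlgClosure K Kb := ⟨inferInstance, inferInstance⟩
  have : IsGalois K Kb := IsAlgClosure.isGalois K Kb
  let P : Kb → (Kb ≃ₐ[K] Kb) → Prop := fun a σ =>
    A.valuation (σ a) = A.valuation a ∧ (A.valuation a ≤ 1 → A.valuation (σ a - a) < 1)
  have hclopen : ∀ (a : Kb) (S : Set Kb), IsOpen {σ : Kb ≃ₐ[K] Kb | σ a ∈ S} := fun a S => by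
    refine isOpen_iff_mem_nhds.2 fun σ hσ => ?_
    have : FiniteDimensional K K⟮a⟯ :=
      adjoin.finiteDimensional (Algebra.IsIntegral.isIntegral a)
    refine Filter.mem_of_superset
      (((IntermediateField.fixingSubgroup_isOpen K⟮a⟯).preimage (continuous_const_mul σ⁻¹)).mem_nhds
        (by simp)) fun τ hτ => ?_
    have h := (mem_fixingSubgroup_iff K⟮a⟯ _).1 hτ a (mem_adjoin_simple_self K a)
    show τ a ∈ S
    rw [show τ a = σ a by
      rw [show τ a = σ ((σ⁻¹ * τ) a) by
        rw [AlgEquiv.mul_apply]; exact (σ.apply_symm_apply _).symm, h]]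
    exact hσ
  let C : FiniteGaloisIntermediateField K Kb → Set (Kb ≃ₐ[K] Kb) := fun F =>
    (⋂ a ∈ F.toIntermediateField, {σ | P a σ}) ∩ {σ | σ x ≠ x}
  have hC : ∀ F, IsClosed (C F) := fun F => by
    refine (isClosed_biInter fun a _ => ?_).inter ?_
    · rw [← isOpen_compl_iff]
      exact hclopen a {b | ¬ (A.valuation b = A.valuation a ∧
        (A.valuation a ≤ 1 → A.valuation (b - a) < 1))}
    · rw [← isOpen_compl_iff]
      exact hclopen x {b | ¬ b ≠ x}
  let F₀ := FiniteGaloisIntermediateField.adjoin K ({x} : Set Kb)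
  have hx₀ : x ∈ F₀.toIntermediateField :=
    FiniteGaloisIntermediateField.subset_adjoin K ({x} : Set Kb) rfl
  by_contra! hall
  have hne : (⋂ F : {F // F₀ ≤ F}, C F.1).Nonempty := by
    have : Nonempty {F : FiniteGaloisIntermediateField K Kb // F₀ ≤ F} := ⟨⟨F₀, le_rfl⟩⟩
    refine IsCompact.nonempty_iInter_of_directed_nonempty_isCompact_isClosed _ ?_
      (fun F => ?_) (fun F => (hC F.1).isCompact) fun F => hC F.1
    · intro F F'
      refine ⟨⟨F.1 ⊔ F'.1, F.2.trans le_sup_left⟩, ?_, ?_⟩
      · exact Set.inter_subset_inter_left _ (Set.biInter_subset_biInter_left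
          fun a ha => (le_sup_left (a := F.1) (b := F'.1) : F.1 ≤ F.1 ⊔ F'.1) ha)
      · exact Set.inter_subset_inter_left _ (Set.biInter_subset_biInter_left
          fun a ha => (le_sup_right (a := F.1) (b := F'.1) : F'.1 ≤ F.1 ⊔ F'.1) ha)
    · obtain ⟨σ, hσ, hne⟩ := hall F.1 (F.2 hx₀)
      exact ⟨σ, Set.mem_iInter₂.2 fun a ha => hσ a ha, hne⟩
  obtain ⟨σ, hσ⟩ := hne
  have hσ' : ∀ (F : FiniteGaloisIntermediateField K Kb), F₀ ≤ F → σ ∈ C F := fun F hF =>
    Set.mem_iInter.1 hσ ⟨F, hF⟩
  have hin : ∀ a : Kb, P a σ := fun a =>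
    Set.mem_iInter₂.1 (hσ' (F₀ ⊔ FiniteGaloisIntermediateField.adjoin K {a}) le_sup_left).1 a
      ((le_sup_right (a := F₀) (b := FiniteGaloisIntermediateField.adjoin K ({a} : Set Kb)) :
        _ ≤ F₀ ⊔ _) (FiniteGaloisIntermediateField.subset_adjoin K ({a} : Set Kb) rfl))
  exact (hσ' F₀ le_rfl).2 (hx σ ⟨fun a => (hin a).1, fun a => (hin a).2⟩)

/-- **An element fixed by inertia has the value of an element of the number field.** -/
theorem exists_zpow_of_fixed (hA : OverPlace A w) {π : K}
    (hπ : w.valuation K π = WithZero.exp (-1 : ℤ)) {x : Kb} (hx0 : x ≠ 0)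
    (hx : ∀ σ ∈ inertGroup K A, σ x = x) :
    ∃ k : ℤ, A.valuation x = A.valuation (algebraMap K Kb π) ^ k := by
  classical
  have : IsAlgClosure K Kb := ⟨inferInstance, inferInstance⟩
  have : IsGalois K Kb := IsAlgClosure.isGalois K Kb
  obtain ⟨L, hxL, hfix⟩ := exists_layer hx
  set F : IntermediateField K Kb := L.toIntermediateField
  have : FiniteDimensional K F := L.finiteDimensional
  have : IsGalois K F := L.isGalois
  have : NumberField F := NumberField.of_module_finite K F
  -- the place of the layer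
  have hint : ∀ a : 𝓞 F, A.valuation (algebraMap F Kb (a : F)) ≤ 1 := fun a => by
    have hi : IsIntegral ℤ (algebraMap F Kb (a : F)) :=
      a.isIntegral_coe.map (algebraMap F Kb).toIntAlgHom
    obtain ⟨f, hf, hfx⟩ := hi
    exact (Valuation.mem_integer_iff _ _).1
      ((Valuation.integer.integers A.valuation).mem_of_integral
      ⟨f.map (algebraMap ℤ A.valuation.integer), hf.map _, by
        rw [Polynomial.eval₂_map, ← IsScalarTower.algebraMap_eq]; exact hfx⟩)
  let Q : Ideal (𝓞 F) :=
    { carrier := {a | A.valuation (algebraMap F Kb (a : F)) < 1}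
      zero_mem' := by simp
      add_mem' := fun {a b} ha hb => by
        show A.valuation (algebraMap F Kb ((a + b : 𝓞 F) : F)) < 1
        rw [show ((a + b : 𝓞 F) : F) = (a : F) + b from rfl, map_add]
        exact A.valuation.map_add_lt ha hb
      smul_mem' := fun c {a} ha => by
        show A.valuation (algebraMap F Kb ((c * a : 𝓞 F) : F)) < 1
        rw [show ((c * a : 𝓞 F) : F) = (c : F) * a from rfl, map_mul, map_mul]
        exact lt_of_le_of_lt (mul_le_of_le_one_left' (hint c)) ha }
  have hQ : ∀ a : 𝓞 F, a ∈ Q ↔ A.valuation (algebraMap F Kb (a : F)) < 1 := fun a => Iff.rfl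
  have hK : ∀ y : K, algebraMap K Kb y = algebraMap F Kb (algebraMap K F y) :=
    IsScalarTower.algebraMap_apply K F Kb
  have hQp : Q.IsPrime := by
    refine ⟨(Ideal.ne_top_iff_one _).2 fun h => ?_, fun {a b} h => ?_⟩
    · rw [hQ] at h
      simp at h
    · by_contra! hab
      rw [hQ, hQ, not_lt, not_lt] at hab
      rw [hQ] at h
      rw [show ((a * b : 𝓞 F) : F) = (a : F) * b from rfl, map_mul, map_mul] at h
      exact absurd h (not_lt.2 (one_le_mul hab.1 hab.2))
  have hover : Q.LiesOver w.asIdeal := ⟨Ideal.ext fun c => by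
    rw [Ideal.under_def, Ideal.mem_comap, hQ, ← HeightOneSpectrum.valuation_lt_one_iff_mem (K := K)]
    rw [show ((algebraMap (𝓞 K) (𝓞 F) c : 𝓞 F) : F) = algebraMap K F (c : K) from rfl, ← hK]
    refine ⟨hA.lt_one _, fun h => lt_of_le_of_ne (w.valuation_le_one c) fun h1 => h.ne ?_⟩
    exact hA.eq_one h1⟩
  let P : HeightOneSpectrum (𝓞 F) := ⟨Q, hQp, Ideal.ne_bot_of_liesOver_of_ne_bot w.ne_bot Q⟩
  have : P.asIdeal.LiesOver w.asIdeal := hover
  have hlie : ∀ y : K,
      w.valuation K y ^ w.asIdeal.ramificationIdx' Q = P.valuation F (algebraMap K F y) :=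
    fun y => HeightOneSpectrum.valuation_liesOver F w P y
  -- the two valuations on the layer
  have hdiv : ∀ a : F, P.valuation F a ≤ 1 → ∃ n d : 𝓞 F, A.valuation (algebraMap F Kb (d : F)) = 1
      ∧ a * (d : F) = n := fun a ha => by
    obtain ⟨n, ⟨d, hd⟩, hn⟩ := P.exists_primeCompl_mul_eq_of_integer a ha
    exact ⟨n, d, le_antisymm (hint d) (not_lt.1 fun h => hd ((hQ d).2 h)), hn⟩
  have hle : ∀ a : F, P.valuation F a ≤ 1 → A.valuation (algebraMap F Kb a) ≤ 1 := fun a ha => by
    obtain ⟨n, d, hd, he⟩ := hdiv a ha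
    have := hint n
    rwa [← he, map_mul, map_mul, hd, mul_one] at this
  have hone : ∀ a : F, P.valuation F a = 1 → A.valuation (algebraMap F Kb a) = 1 := fun a ha => by
    refine le_antisymm (hle a ha.le) ?_
    have h := hle a⁻¹ (by rw [map_inv₀, ha, inv_one])
    rwa [map_inv₀, map_inv₀, inv_le_one₀ (A.valuation.pos_iff.2 ((map_ne_zero _).2 fun h0 => by
      rw [h0, map_zero] at ha; exact zero_ne_one ha))] at h
  have hback : ∀ a : F, A.valuation (algebraMap F Kb a) ≤ 1 → P.valuation F a ≤ 1 := fun a ha => by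
    by_contra! hgt
    obtain ⟨n, d, hd, he⟩ := hdiv a⁻¹ (by rw [map_inv₀]; exact inv_le_one_of_one_le₀ hgt.le)
    have hn : n ∈ Q := by
      have h1 : P.valuation F (n : F) < 1 := by
        rw [← he, map_mul, map_inv₀]
        exact lt_of_le_of_lt (mul_le_of_le_one_right' (P.valuation_le_one d))
          (inv_lt_one_of_one_lt₀ hgt)
      exact (P.valuation_lt_one_iff_mem n).1 h1
    rw [hQ, ← he, map_mul, map_mul, hd, mul_one, map_inv₀, map_inv₀] at hn
    have ha0 : a ≠ 0 := fun h => by rw [h, map_zero] at hgt; exact absurd hgt (not_lt.2 zero_le)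
    exact absurd hn (not_lt.2 ((one_le_inv₀ (A.valuation.pos_iff.2 ((map_ne_zero _).2 ha0))).2 ha))
  -- inertia of the layer fixes `x`
  set J : Subgroup (F ≃ₐ[K] F) := Q.inertia (F ≃ₐ[K] F) with hJ
  have hres : ∀ τ ∈ J, ∀ a : F, A.valuation (algebraMap F Kb a) ≤ 1 →
      A.valuation (algebraMap F Kb (τ a) - algebraMap F Kb a) < 1 := fun τ hτ a ha => by
    obtain ⟨n, d, hd, he⟩ := hdiv a (hback a ha)
    have hm : ∀ c : 𝓞 F, A.valuation (algebraMap F Kb (τ (c : F)) - algebraMap F Kb (c : F)) < 1 :=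
      fun c => by
        have h := (hQ _).1 (AddSubgroup.mem_inertia.1 hτ c)
        rw [show ((τ • c - c : 𝓞 F) : F) = τ (c : F) - c from rfl, map_sub] at h
        exact h
    have hτd : A.valuation (algebraMap F Kb (τ (d : F))) = 1 := eq_one_of_sub_lt hd (hm d)
    have e : (τ a - a) * ((d : F) * τ (d : F)) =
        (τ (n : F) - n) * (d : F) - n * (τ (d : F) - d) := by
      rw [← he, map_mul]; ring
    have h := congrArg (fun z => A.valuation (algebraMap F Kb z)) e
    simp only [map_mul, map_sub, hd, hτd, mul_one] at h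
    rw [h]
    refine A.valuation.map_sub_lt ?_ ?_
    · rw [map_mul, hd, mul_one]; exact hm n
    · rw [map_mul]
      exact lt_of_le_of_lt (mul_le_of_le_one_left' (hint n)) (hm d)
  have hdown : ∀ τ ∈ J, ∀ c : F, A.valuation (algebraMap F Kb c) < 1 →
      A.valuation (algebraMap F Kb (τ c)) < 1 := fun τ hτ c hc =>
    lt_one_of_sub_lt hc (hres τ hτ c hc.le)
  have hval : ∀ τ ∈ J, ∀ a : F,
      A.valuation (algebraMap F Kb (τ a)) = A.valuation (algebraMap F Kb a) := by
    -- a unit `c` with `c · τ c ⋯ = 1` has value one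
    have hge : ∀ τ ∈ J, ∀ a : F,
        A.valuation (algebraMap F Kb a) ≤ A.valuation (algebraMap F Kb (τ a)) := fun τ hτ a => by
      by_contra! hlt
      have hiter : ∀ i, A.valuation (algebraMap F Kb ((τ ^ (i + 1)) a)) <
          A.valuation (algebraMap F Kb ((τ ^ i) a)) := fun i => by
        induction i with
        | zero => simpa using hlt
        | succ i ih =>
          have hpos : 0 < A.valuation (algebraMap F Kb ((τ ^ i) a)) := lt_of_le_of_lt zero_le ih
          have h := hdown τ hτ ((τ ^ (i + 1)) a / (τ ^ i) a) (by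
            rw [map_div₀, map_div₀, div_lt_one₀ hpos]; exact ih)
          rw [map_div₀, map_div₀, map_div₀, ← AlgEquiv.mul_apply, ← AlgEquiv.mul_apply,
            ← pow_succ', ← pow_succ'] at h
          refine (div_lt_one₀ (A.valuation.pos_iff.2 ?_)).1 h
          simp only [ne_eq, map_eq_zero]
          intro h0
          rw [h0, map_zero, map_zero, map_zero] at hpos
          exact lt_irrefl _ hpos
      have hanti : StrictAnti fun i : ℕ => A.valuation (algebraMap F Kb ((τ ^ i) a)) :=
        strictAnti_nat_of_succ_lt hiter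
      have := hanti (orderOf_pos τ)
      simp only [pow_orderOf_eq_one, pow_zero, lt_self_iff_false] at this
    intro τ hτ a
    refine le_antisymm ?_ (hge τ hτ a)
    have h := hge τ⁻¹ (inv_mem hτ) (τ a)
    rwa [show τ⁻¹ (τ a) = a from τ.symm_apply_apply a] at h
  have hxJ : ∀ τ ∈ J, τ (⟨x, hxL⟩ : F) = ⟨x, hxL⟩ := fun τ hτ => by
    obtain ⟨σ, rfl⟩ := AlgEquiv.restrictNormalHom_surjective (F := K) (K₁ := F) Kb τ
    have hσa : ∀ a : F, algebraMap F Kb (AlgEquiv.restrictNormalHom F σ a) = σ a :=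
      fun a => AlgEquiv.restrictNormalHom_apply F σ a
    refine Subtype.ext ((hσa ⟨x, hxL⟩).trans (hfix σ fun a ha => ⟨?_, fun h1 => ?_⟩))
    · rw [show σ a = _ from (hσa ⟨a, ha⟩).symm]
      exact hval _ hτ ⟨a, ha⟩
    · rw [show σ a = _ from (hσa ⟨a, ha⟩).symm]
      exact hres _ hτ ⟨a, ha⟩ h1
  -- the ramification index is the order of inertia
  have hcard : w.asIdeal.ramificationIdx' Q = Nat.card J := by
    rw [Ideal.ramificationIdx'_eq_ramificationIdx w.asIdeal Q w.ne_bot,
      ← Ideal.ramificationIdxIn_eq_ramificationIdx w.asIdeal Q (F ≃ₐ[K] F),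
      hJ, Ideal.card_inertia_eq_ramificationIdxIn w.asIdeal Q]
  -- and so is that over the fixed field
  set M : IntermediateField K F := IntermediateField.fixedField J
  have : NumberField M := NumberField.of_module_finite K M
  have : IsGalois M F := IsGalois.tower_top_of_isGalois K M F
  let p : HeightOneSpectrum (𝓞 M) := ⟨Q.under (𝓞 M), inferInstance,
    Ideal.under_ne_bot (A := 𝓞 M) P.ne_bot⟩
  have : P.asIdeal.LiesOver p.asIdeal := ⟨rfl⟩
  have hcard' : p.asIdeal.ramificationIdx' Q = Nat.card J := by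
    have : Q.LiesOver p.asIdeal := ⟨rfl⟩
    rw [Ideal.ramificationIdx'_eq_ramificationIdx p.asIdeal Q p.ne_bot,
      ← Ideal.ramificationIdxIn_eq_ramificationIdx p.asIdeal Q (F ≃ₐ[M] F),
      ← Ideal.card_inertia_eq_ramificationIdxIn (G := F ≃ₐ[M] F) p.asIdeal Q]
    rw [show Q.inertia (F ≃ₐ[M] F) = ⊤ from eq_top_iff.2 fun g _ => ?_, Subgroup.card_top,
      IsGalois.card_aut_eq_finrank, IntermediateField.finrank_fixedField_eq_card]
    have hg : g.restrictScalars K ∈ J := by
      rw [← IntermediateField.fixingSubgroup_fixedField J, IntermediateField.mem_fixingSubgroup_iff]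
      exact fun m hm => g.commutes ⟨m, hm⟩
    exact fun c => hg c
  have hxM : (⟨x, hxL⟩ : F) ∈ M := fun τ => hxJ τ.1 τ.2
  obtain ⟨n, hn⟩ : ∃ n : ℤ, p.valuation M (⟨_, hxM⟩ : M) = WithZero.exp n :=
    ⟨_, (WithZero.exp_log ((Valuation.ne_zero_iff _).2 fun h0 => hx0 (by
      simpa using congrArg (fun z : M => ((z : F) : Kb)) h0))).symm⟩
  have hxv := HeightOneSpectrum.valuation_liesOver F p P (⟨_, hxM⟩ : M)
  rw [show p.asIdeal.ramificationIdx' P.asIdeal = Nat.card J from hcard', hn] at hxv
  have hπv : P.valuation F (algebraMap K F π) = WithZero.exp (-1 : ℤ) ^ Nat.card J := by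
    rw [← hlie, hπ, hcard]
  refine ⟨-n, ?_⟩
  have hπ0 : algebraMap K F π ≠ 0 := (map_ne_zero _).2 fun h => by
    rw [h, map_zero] at hπ; exact WithZero.exp_ne_zero hπ.symm
  have h1 := hone (algebraMap M F ⟨_, hxM⟩ / algebraMap K F π ^ (-n)) (by
    rw [map_div₀, map_zpow₀, ← hxv, hπv, div_eq_one_iff_eq
      (zpow_ne_zero _ (pow_ne_zero _ WithZero.exp_ne_zero)), ← WithZero.exp_nsmul,
      ← WithZero.exp_nsmul, ← WithZero.exp_zsmul]
    congr 1
    simp
    ring)
  rw [map_div₀, map_div₀, map_zpow₀, map_zpow₀, ← hK, div_eq_one_iff_eq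
    (zpow_ne_zero _ (A.valuation.ne_zero_iff.2 (by rw [hK]; exact (map_ne_zero _).2 hπ0)))] at h1
  exact h1

end FA.OpenImageNF

end
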