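import Mathlib.NumberTheory.Cyclotomic.CyclotomicCharacter
import Mathlib.RingTheory.Polynomial.Cyclotomic.Roots
import Mathlib.RingTheory.RootsOfUnity.AlgebraicallyClosed
import Mathlib.NumberTheory.NumberField.Basic
import Mathlib.Data.ZMod.Units

/-!
# The cyclotomic character over a number field has open image

The index of its image modulo `N` is at most the degree of the field and grows along divisibility,
so at a level where it is largest it already decides the image at every level.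
-/

set_option autoImplicit false
set_option linter.unusedSectionVars false

noncomputable section

namespace FA.OpenImageNF

open Polynomial IntermediateField

universe u v

variable {K : Type u} [Field K] [NumberField K] {Kb : Type v} [Field Kb] [Algebra K Kb]
  [CharZero Kb] [IsAlgClosed Kb] [Algebra.IsAlgebraic K Kb]

variable (K Kb) in
/-- The cyclotomic character modulo `N`. -/
def cycl (N : ℕ) [NeZero N] : (Kb ≃ₐ[K] Kb) →* (ZMod N)ˣ :=
  have : NeZero (N : Kb) := ⟨Nat.cast_ne_zero.2 (NeZero.ne N)⟩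
  (modularCyclotomicCharacter Kb (HasEnoughRootsOfUnity.natCard_rootsOfUnity Kb N)).comp
    (MonoidHom.mk' (fun σ => σ.toRingEquiv) fun _ _ => rfl)

theorem cycl_spec {N : ℕ} [NeZero N] (σ : Kb ≃ₐ[K] Kb) {μ : Kb} (hμ : μ ^ N = 1) :
    σ μ = μ ^ (cycl K Kb N σ : ZMod N).val := by
  have : NeZero (N : Kb) := ⟨Nat.cast_ne_zero.2 (NeZero.ne N)⟩
  let t : rootsOfUnity N Kb := rootsOfUnity.mkOfPowEq μ hμ
  have h := modularCyclotomicCharacter.spec Kb (HasEnoughRootsOfUnity.natCard_rootsOfUnity Kb N)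
    σ.toRingEquiv t.2
  simpa [t, cycl] using h

theorem cycl_unique {N : ℕ} [NeZero N] (σ : Kb ≃ₐ[K] Kb) {a : ℕ}
    (ha : ∀ μ : Kb, μ ^ N = 1 → σ μ = μ ^ a) : (cycl K Kb N σ : ZMod N) = a := by
  have : NeZero (N : Kb) := ⟨Nat.cast_ne_zero.2 (NeZero.ne N)⟩
  obtain ⟨μ, hμ⟩ := HasEnoughRootsOfUnity.exists_primitiveRoot Kb N
  have e := (cycl_spec σ hμ.pow_eq_one).symm.trans (ha μ hμ.pow_eq_one)
  rw [(hμ.isOfFinOrder (NeZero.ne N)).pow_eq_pow_iff_modEq, ← hμ.eq_orderOf,
    ← ZMod.natCast_eq_natCast_iff, ZMod.natCast_zmod_val] at e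
  exact e

/-- The index of the image is at most the degree of the field. -/
theorem index_range_cycl_le (N : ℕ) [NeZero N] :
    (cycl K Kb N).range.index ≤ Module.finrank ℚ K := by
  classical
  have : IsAlgClosure K Kb := ⟨inferInstance, inferInstance⟩
  have : Normal K Kb := IsAlgClosure.normal K Kb
  have : NeZero (N : Kb) := ⟨Nat.cast_ne_zero.2 (NeZero.ne N)⟩
  obtain ⟨ζ, hζ⟩ := HasEnoughRootsOfUnity.exists_primitiveRoot Kb N
  have hint : IsIntegral K ζ := Algebra.IsIntegral.isIntegral ζ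
  set H := (cycl K Kb N).range
  have hdeg : (minpoly K ζ).natDegree ≤ Nat.card H := by
    have hroot : (minpoly K ζ).rootSet Kb ⊆
        (fun u : H => ζ ^ ((u : (ZMod N)ˣ) : ZMod N).val) '' Set.univ := fun x hx => by
      rw [mem_rootSet] at hx
      obtain ⟨σ, hσ⟩ : x ∈ MulAction.orbit (Kb ≃ₐ[K] Kb) ζ := by
        rw [← Normal.minpoly_eq_iff_mem_orbit Kb]
        exact (minpoly.eq_of_irreducible_of_monic (minpoly.irreducible hint) hx.2
          (minpoly.monic hint)).symm
      exact ⟨⟨_, σ, rfl⟩, trivial, (cycl_spec σ hζ.pow_eq_one).symm.trans hσ⟩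
    have hcard : ((minpoly K ζ).rootSet Kb).ncard = (minpoly K ζ).natDegree := by
      rw [← Nat.card_coe_set_eq, Nat.card_eq_fintype_card]
      exact card_rootSet_eq_natDegree (minpoly.irreducible hint).separable
        (IsAlgClosed.splits _)
    rw [← hcard]
    refine (Set.ncard_le_ncard hroot (Set.toFinite _)).trans ?_
    refine (Set.ncard_image_le (Set.toFinite _)).trans ?_
    rw [Set.ncard_univ]
  have htot : N.totient ≤ (minpoly K ζ).natDegree * Module.finrank ℚ K := by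
    have : FiniteDimensional K K⟮ζ⟯ := adjoin.finiteDimensional hint
    have : FiniteDimensional ℚ K⟮ζ⟯ := Module.Finite.trans K K⟮ζ⟯
    have h1 := minpoly.natDegree_le (A := ℚ) (AdjoinSimple.gen K ζ)
    rw [← minpoly.algebraMap_eq (algebraMap K⟮ζ⟯ Kb).injective, AdjoinSimple.algebraMap_gen,
      ← cyclotomic_eq_minpoly_rat hζ (NeZero.pos N), natDegree_cyclotomic,
      ← Module.finrank_mul_finrank ℚ K K⟮ζ⟯, adjoin.finrank hint] at h1
    rwa [mul_comm]
  have hidx := H.card_mul_index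
  rw [Nat.card_eq_fintype_card (α := (ZMod N)ˣ), ZMod.card_units_eq_totient] at hidx
  have hpos : 0 < Nat.card H := Nat.card_pos
  refine Nat.le_of_mul_le_mul_left (show Nat.card H * H.index ≤ Nat.card H * _ from ?_) hpos
  rw [hidx]
  exact htot.trans (Nat.mul_le_mul_right _ hdeg)

variable (K Kb) in
/-- **The cyclotomic character has open image.** -/
theorem exists_cyclotomic_open :
    ∃ N₀ : ℕ, N₀ ≠ 0 ∧ ∀ N : ℕ, N ≠ 0 → ∀ a : ℕ, a.Coprime N → a ≡ 1 [MOD N.gcd N₀] →
      ∃ σ : Kb ≃ₐ[K] Kb, ∀ μ : Kb, μ ^ N = 1 → σ μ = μ ^ a := by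
  classical
  let idx : ℕ → ℕ := fun N =>
    if h : N = 0 then 0 else (have : NeZero N := ⟨h⟩; (cycl K Kb N).range.index)
  have hidx : ∀ (N : ℕ) [NeZero N], idx N = (cycl K Kb N).range.index := fun N _ => by
    simp [idx, NeZero.ne N]
  have hbdd : BddAbove (Set.range idx) := ⟨Module.finrank ℚ K, by
    rintro _ ⟨N, rfl⟩
    rcases eq_or_ne N 0 with rfl | h
    · simp [idx]
    · have : NeZero N := ⟨h⟩
      rw [hidx]
      exact index_range_cycl_le N⟩
  obtain ⟨N₀, hmax⟩ := Nat.sSup_mem (Set.range_nonempty idx) hbdd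
  have hle : ∀ N, idx N ≤ idx N₀ := fun N => hmax ▸ le_csSup hbdd ⟨N, rfl⟩
  have hN₀ : N₀ ≠ 0 := fun h => by
    have h1 := hle 1
    rw [hidx, show idx N₀ = 0 by simp [idx, h]] at h1
    exact Subgroup.index_ne_zero_of_finite (Nat.le_zero.1 h1)
  refine ⟨N₀, hN₀, fun N hN a ha hcong => ?_⟩
  have : NeZero N₀ := ⟨hN₀⟩
  have : NeZero (N.lcm N₀) := ⟨Nat.lcm_ne_zero hN hN₀⟩
  set M := N.lcm N₀
  set π := ZMod.unitsMap (Nat.dvd_lcm_right N N₀)
  have hcomp : π.comp (cycl K Kb M) = cycl K Kb N₀ := MonoidHom.ext fun σ => Units.ext <| by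
    symm
    rw [cycl_unique (a := ((cycl K Kb M σ : (ZMod M)ˣ) : ZMod M).val) σ fun μ hμ =>
      cycl_spec σ (by
        obtain ⟨c, hc⟩ := Nat.dvd_lcm_right N N₀
        rw [show M = N₀ * c from hc, pow_mul, hμ, one_pow])]
    rw [MonoidHom.comp_apply, show π = ZMod.unitsMap (Nat.dvd_lcm_right N N₀) from rfl,
      ZMod.unitsMap_def, Units.coe_map, MonoidHom.coe_coe,
      ZMod.castHom_apply, ZMod.cast_eq_val]
  have hsub : (cycl K Kb M).range ≤ (cycl K Kb N₀).range.comap π := by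
    rintro _ ⟨σ, rfl⟩
    exact ⟨σ, (DFunLike.congr_fun hcomp σ).symm⟩
  have heq : (cycl K Kb N₀).range.comap π ≤ (cycl K Kb M).range := by
    refine Subgroup.relIndex_eq_one.1 ?_
    have h1 := Subgroup.relIndex_mul_index hsub
    have h2 := hle M
    rw [hidx, hidx] at h2
    rw [Subgroup.index_comap_of_surjective _ (ZMod.unitsMap_surjective _)] at h1
    have hpos : 0 < (cycl K Kb N₀).range.index :=
      Nat.pos_of_ne_zero Subgroup.index_ne_zero_of_finite
    have hr : (cycl K Kb M).range.relIndex ((cycl K Kb N₀).range.comap π) ≠ 0 := fun h => by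
      rw [h, zero_mul] at h1
      exact Subgroup.index_ne_zero_of_finite h1.symm
    by_contra hne
    have h3 : 2 ≤ (cycl K Kb M).range.relIndex ((cycl K Kb N₀).range.comap π) := by omega
    have := Nat.mul_le_mul_right (cycl K Kb N₀).range.index h3
    omega
  -- an exponent at the common multiple
  obtain ⟨b, hb, hb₀⟩ := Nat.chineseRemainder' hcong
  have hbN : b.Coprime N := by
    rw [Nat.coprime_iff_gcd_eq_one, hb.gcd_eq]
    exact ha
  have hbN₀ : b.Coprime N₀ := by
    rw [Nat.coprime_iff_gcd_eq_one, hb₀.gcd_eq, Nat.gcd_one_left]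
  have hbM : b.Coprime M := (hbN.mul_right hbN₀).coprime_dvd_right (Nat.lcm_dvd_mul N N₀)
  obtain ⟨σ, hσ⟩ : ZMod.unitOfCoprime b hbM ∈ (cycl K Kb M).range := heq (by
    rw [Subgroup.mem_comap]
    convert one_mem (cycl K Kb N₀).range
    refine Units.ext ?_
    rw [show π = ZMod.unitsMap (Nat.dvd_lcm_right N N₀) from rfl, ZMod.unitsMap_def,
      Units.coe_map, MonoidHom.coe_coe, ZMod.coe_unitOfCoprime,
      map_natCast, Units.val_one, (ZMod.natCast_eq_natCast_iff _ _ _).2 hb₀, Nat.cast_one])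
  refine ⟨σ, fun μ hμ => ?_⟩
  rw [cycl_spec (N := M) σ (by
    obtain ⟨c, hc⟩ := Nat.dvd_lcm_left N N₀
    rw [show M = N * c from hc, pow_mul, hμ, one_pow]), hσ, ZMod.coe_unitOfCoprime]
  refine pow_eq_pow_of_modEq ?_ hμ
  refine (Nat.ModEq.of_dvd (Nat.dvd_lcm_left N N₀) ?_).trans hb
  rw [ZMod.val_natCast]
  exact Nat.mod_modEq b M

end FA.OpenImageNF

end
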