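import Fermat.Agent.OpenImageNF.SmallPrime
import Fermat.Agent.IsogenyNF.AdelicImage
import Mathlib.GroupTheory.Solvable

/-!
# The derived series of Galois on the torsion

Commutators of the exact congruence subgroups of `SL₂(ℤ_p)` again contain one, and modulo a large
`p` commutators give all of `SL₂(𝔽_p)`. So every member of the derived series moves all torsion
points but those killed by some integer, whose prime factors are bounded independently of it.
-/

set_option autoImplicit false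
set_option linter.unusedSectionVars false

noncomputable section

namespace FA.OpenImageNF

open WeierstrassCurve Matrix FA.IsogenyNF FA.PadicImage
open scoped WeierstrassCurve.Affine commutatorElement

universe u v

variable {K : Type u} [Field K] [NumberField K] {Kb : Type v} [Field Kb] [DecidableEq Kb]
  [Algebra K Kb] [CharZero Kb] [IsAlgClosed Kb] [Algebra.IsAlgebraic K Kb]

local notation "M2" => Matrix (Fin 2) (Fin 2)

variable (E : WeierstrassCurve K) [E.IsElliptic]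

variable (Kb) in
/-- **Every derived subgroup reaches a congruence subgroup of `SL₂(ℤ_p)`.** -/
theorem exists_level_derived (hj : ¬ IsIntegral ℤ E.j) (p : ℕ) [Fact p.Prime] :
    ∃ B : TateGen Kb p E, ∀ d : ℕ, ∃ k : ℕ, 0 < k ∧
      ∀ Y : M2 ℤ_[p], (1 + (p : ℤ_[p]) ^ k • Y).det = 1 →
        ∃ σ ∈ derivedSeries (Kb ≃ₐ[K] Kb) d, B.rep σ = 1 + (p : ℤ_[p]) ^ k • Y := by
  obtain ⟨B, j, hj0, hlev⟩ := exists_level_det_one_tate Kb p E hj
  refine ⟨B, fun d => ?_⟩
  induction d with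
  | zero =>
    exact ⟨j, hj0, fun Y hY => (hlev Y hY).imp fun σ hσ => ⟨Subgroup.mem_top σ, hσ⟩⟩
  | succ d ih =>
    obtain ⟨k, hk0, hk⟩ := ih
    set π : ℤ_[p] := (p : ℤ_[p]) with hπ
    set x : ℤ_[p] := π ^ k with hx
    obtain ⟨u, hu⟩ : ∃ u : ℤ_[p]ˣ, (u : ℤ_[p]) = 1 + x := by
      refine ⟨(isUnit_iff_toZMod.mpr ?_).unit, IsUnit.unit_spec _⟩
      rw [map_add, map_one, hx, hπ, map_pow, map_natCast, ZMod.natCast_self, zero_pow hk0.ne',
        add_zero]
      exact one_ne_zero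
    have hux : 1 - x * ↑u⁻¹ = ((u⁻¹ : ℤ_[p]ˣ) : ℤ_[p]) := by
      have h1 : (u : ℤ_[p]) * ↑u⁻¹ = 1 := u.mul_inv
      rw [hu] at h1
      linear_combination -h1
    obtain ⟨a, ha, ha'⟩ := hk !![1, 0; 0, -(↑u⁻¹ : ℤ_[p])] (by
      simp only [det_fin_two, Matrix.add_apply, Matrix.smul_apply, smul_eq_mul]
      simp [← hx]
      rw [← hu, ← sub_eq_add_neg, hux, Units.mul_inv])
    have ha1 : B.rep a = !![(u : ℤ_[p]), 0; 0, ↑u⁻¹] := by
      rw [ha']
      ext i i'
      fin_cases i <;> fin_cases i' <;> simp [← hx, hu]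
      linear_combination hux
    have ha2 : B.rep a⁻¹ = !![(↑u⁻¹ : ℤ_[p]), 0; 0, (u : ℤ_[p])] := left_inv_eq_right_inv
      (by rw [← map_mul, inv_mul_cancel, map_one])
      (by rw [ha1]; simp [one_fin_two])
    set ε : ℤ_[p] := ((u : ℤ_[p]) * u - 1) * x with hε
    have hε0 : ε ≠ 0 := by
      have h2 : ((2 + p ^ k : ℕ) : ℤ_[p]) ≠ 0 := Nat.cast_ne_zero.2 (by omega)
      rw [hε, hu, show (1 + x) * (1 + x) - 1 = x * ((2 + p ^ k : ℕ) : ℤ_[p]) by
        rw [hx, hπ]; push_cast; ring]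
      exact mul_ne_zero (mul_ne_zero (pow_ne_zero _ (NeZero.ne π)) h2)
        (pow_ne_zero _ (NeZero.ne π))
    let S : Submonoid (M2 ℤ_[p]) :=
      Submonoid.map B.rep (derivedSeries (Kb ≃ₐ[K] Kb) (d + 1)).toSubmonoid
    have hmem : ∀ s ∈ derivedSeries (Kb ≃ₐ[K] Kb) d, ∀ t ∈ derivedSeries (Kb ≃ₐ[K] Kb) d,
        B.rep (s * t * s⁻¹ * t⁻¹) ∈ S := fun s hs t ht =>
      ⟨_, by
        rw [SetLike.mem_coe, Subgroup.mem_toSubmonoid, derivedSeries_succ]
        exact Subgroup.commutator_mem_commutator hs ht, rfl⟩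
    have hU : ∀ z, (!![1, ε * z; 0, 1] : M2 ℤ_[p]) ∈ S := fun z => by
      obtain ⟨g, hg, hg'⟩ := hk !![0, z; 0, 0] (by simp [det_fin_two])
      have hg1 : B.rep g = !![1, x * z; 0, 1] := by
        rw [hg']; ext i i'; fin_cases i <;> fin_cases i' <;> simp [hx]
      have hg2 : B.rep g⁻¹ = !![1, -(x * z); 0, 1] := left_inv_eq_right_inv
        (by rw [← map_mul, inv_mul_cancel, map_one]) (by rw [hg1]; simp [one_fin_two])
      convert hmem a ha g hg using 1
      rw [map_mul, map_mul, map_mul, ha1, ha2, hg1, hg2, hε]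
      ext i i'
      fin_cases i <;> fin_cases i' <;> simp [Matrix.mul_apply, Fin.sum_univ_two]
      ring
    have hL : ∀ z, (!![1, 0; ε * z, 1] : M2 ℤ_[p]) ∈ S := fun z => by
      obtain ⟨g, hg, hg'⟩ := hk !![0, 0; z, 0] (by simp [det_fin_two])
      have hg1 : B.rep g = !![1, 0; x * z, 1] := by
        rw [hg']; ext i i'; fin_cases i <;> fin_cases i' <;> simp [hx]
      have hg2 : B.rep g⁻¹ = !![1, 0; -(x * z), 1] := left_inv_eq_right_inv
        (by rw [← map_mul, inv_mul_cancel, map_one]) (by rw [hg1]; simp [one_fin_two])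
      convert hmem a⁻¹ (inv_mem ha) g hg using 1
      rw [inv_inv, map_mul, map_mul, map_mul, ha1, ha2, hg1, hg2, hε]
      ext i i'
      fin_cases i <;> fin_cases i' <;> simp [Matrix.mul_apply, Fin.sum_univ_two]
      ring
    obtain ⟨c, r, hr⟩ := exists_dvd_prime_pow
      (show π * (ε * ε) ≠ 0 from mul_ne_zero (NeZero.ne π) (mul_self_ne_zero.mpr hε0))
    refine ⟨c + 1, c.succ_pos, fun Y hY => ?_⟩
    have e : π ^ (c + 1) • Y = (π * (ε * ε)) • ((r * π) • Y) := by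
      rw [pow_succ, hr, smul_smul]; congr 1; ring
    rw [e] at hY ⊢
    obtain ⟨σ, hσ, hσ'⟩ := mem_of_elementary_congr S ε hU hL hY
    exact ⟨σ, hσ, hσ'⟩

/-- A vector fixed by both elementary matrices of entry `c` is killed by `c`. -/
theorem nsmul_eq_zero_of_fixed {p : ℕ} [Fact p.Prime] {E : WeierstrassCurve K} [E.IsElliptic]
    (B : TateGen Kb p E) {H : Subgroup (Kb ≃ₐ[K] Kb)} {k : ℕ}
    (hk : ∀ Y : M2 ℤ_[p], (1 + (p : ℤ_[p]) ^ k • Y).det = 1 →
      ∃ σ ∈ H, B.rep σ = 1 + (p : ℤ_[p]) ^ k • Y)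
    {n : ℕ} {R : (E.toAffine⁄Kb).Point} (hR : p ^ n • R = 0) (hfix : ∀ σ ∈ H, σ • R = R) :
    p ^ k • R = 0 := by
  obtain ⟨v, rfl⟩ := B.surj n R hR
  obtain ⟨g, hgH, hg⟩ := hk !![0, 1; 0, 0] (by simp [det_fin_two])
  obtain ⟨g', hgH', hg'⟩ := hk !![0, 0; 1, 0] (by simp [det_fin_two])
  have h1 := B.phi_eq_iff.1 ((B.rep_spec g n v).symm.trans (hfix g hgH))
  have h2 := B.phi_eq_iff.1 ((B.rep_spec g' n v).symm.trans (hfix g' hgH'))
  rw [← map_nsmul, B.ker]
  have e : ∀ i, PadicInt.toZModPow n ((p ^ k • v) i) =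
      ((p ^ k : ℕ) : ZMod (p ^ n)) * PadicInt.toZModPow n (v i) := fun i => by
    rw [Pi.smul_apply, nsmul_eq_mul, map_mul, map_natCast]
  intro i
  rw [e]
  fin_cases i
  · have := h2 1
    rw [hg'] at this
    simpa [Matrix.mulVec, dotProduct, Fin.sum_univ_two, Matrix.one_apply] using this
  · have := h1 0
    rw [hg] at this
    simpa [Matrix.mulVec, dotProduct, Fin.sum_univ_two, Matrix.one_apply] using this

variable (Kb) in
/-- Modulo a large prime every derived subgroup moves every point of that order. -/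
theorem exists_bound_derived_fixed (hj : ¬ IsIntegral ℤ E.j) :
    ∃ B : ℕ, ∀ p : ℕ, p.Prime → B < p → ∀ (d : ℕ) (R : (E.toAffine⁄Kb).Point), p • R = 0 →
      (∀ σ ∈ derivedSeries (Kb ≃ₐ[K] Kb) d, σ • R = R) → R = 0 := by
  obtain ⟨B, hB⟩ := exists_bound_det_one (Kb := Kb) E hj
  refine ⟨B + 4, fun p hp hlt d R hR hfix => ?_⟩
  have := Fact.mk hp
  have hn : p ^ (0 + 1) ≠ 0 := pow_ne_zero _ hp.ne_zero
  obtain ⟨P, Q, h⟩ := exists_torGen_level (Kb := Kb) E hn
  let ψ : (Kb ≃ₐ[K] Kb) →* M2 (ZMod p) :=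
    (modP (p := p) (0 : ℕ).succ_ne_zero).toMonoidHom.comp (h.rep hn)
  have hsl : ∀ e : ℕ, ∀ Z : M2 (ZMod p), Z.det = 1 →
      ∃ σ ∈ derivedSeries (Kb ≃ₐ[K] Kb) e, ψ σ = Z := fun e => by
    induction e with
    | zero =>
      exact fun Z hZ => (exists_modP_eq E hp h (hB p hp (by omega)) hZ).imp
        fun σ hσ => ⟨Subgroup.mem_top σ, hσ⟩
    | succ e ih =>
      intro Z hZ
      obtain ⟨σ, hσ, hσ'⟩ := exists_commutator_modP (by omega)
        (ψ.comp (derivedSeries (Kb ≃ₐ[K] Kb) e).subtype)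
        (fun W hW => by
          obtain ⟨τ, hτ, hτ'⟩ := ih W hW
          exact ⟨⟨τ, hτ⟩, hτ'⟩) hZ
      refine ⟨σ, ?_, hσ'⟩
      rw [derivedSeries_succ, ← Subgroup.map_subtype_commutator]
      exact ⟨σ, hσ, rfl⟩
  obtain ⟨v, rfl⟩ := h.coord_surj (R := R) (by rw [zero_add, pow_one]; exact hR)
  have hfix' : ∀ Z : M2 (ZMod p), Z.det = 1 →
      Z *ᵥ (ZMod.castHom (dvd_pow_self p (0 : ℕ).succ_ne_zero) (ZMod p) ∘ v) =
        ZMod.castHom (dvd_pow_self p (0 : ℕ).succ_ne_zero) (ZMod p) ∘ v := fun Z hZ => by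
    obtain ⟨σ, hσ, rfl⟩ := hsl d Z hZ
    have := h.coord_injective hn ((h.rep_spec hn σ v).symm.trans (hfix σ hσ))
    conv_rhs => rw [← this]
    exact funext fun i => (RingHom.map_mulVec
      (ZMod.castHom (dvd_pow_self p (0 : ℕ).succ_ne_zero) (ZMod p)) (h.rep hn σ) v i).symm
  have h1 := congrFun (hfix' !![1, 1; 0, 1] (by simp [det_fin_two])) 0
  have h2 := congrFun (hfix' !![1, 0; 1, 1] (by simp [det_fin_two])) 1
  simp [Matrix.mulVec, dotProduct, Fin.sum_univ_two] at h1 h2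
  have hinj : Function.Injective
      (ZMod.castHom (dvd_pow_self p (0 : ℕ).succ_ne_zero) (ZMod p)) :=
    ((Nat.bijective_iff_surjective_and_card _).mpr ⟨ZMod.castHom_surjective _,
      by rw [Nat.card_zmod, Nat.card_zmod, pow_one]⟩).1
  have hv : v = 0 := funext fun i => hinj (by
    fin_cases i
    · simpa using h2
    · simpa using h1)
  rw [hv, map_zero]

variable (Kb) in
/-- **The torsion fixed by a derived subgroup** is killed by some integer, and its orders have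
prime factors below one bound for the whole series. -/
theorem exists_bound_torsion_derived (hj : ¬ IsIntegral ℤ E.j) :
    ∃ B : ℕ, ∀ d : ℕ, ∃ m : ℕ, 0 < m ∧ ∀ P : (E.toAffine⁄Kb).Point, IsOfFinAddOrder P →
      (∀ σ ∈ derivedSeries (Kb ≃ₐ[K] Kb) d, σ • P = P) →
        m • P = 0 ∧ ∀ p ∈ (addOrderOf P).primeFactors, p ≤ B := by
  classical
  obtain ⟨B, hB⟩ := exists_bound_derived_fixed Kb E hj
  refine ⟨B, fun d => ?_⟩
  have hlev : ∀ p : ℕ, ∃ k : ℕ, p.Prime → ∀ (n : ℕ) (R : (E.toAffine⁄Kb).Point), p ^ n • R = 0 →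
      (∀ σ ∈ derivedSeries (Kb ≃ₐ[K] Kb) d, σ • R = R) → p ^ k • R = 0 := fun p => by
    by_cases hp : p.Prime
    · have := Fact.mk hp
      obtain ⟨T, hT⟩ := exists_level_derived Kb E hj p
      obtain ⟨k, -, hk⟩ := hT d
      exact ⟨k, fun _ n R hR hfix => nsmul_eq_zero_of_fixed T hk hR hfix⟩
    · exact ⟨0, fun h => absurd h hp⟩
  choose k hk using hlev
  set S := (Finset.range (B + 1)).filter Nat.Prime
  refine ⟨∏ p ∈ S, p ^ k p, Finset.prod_pos fun p hp => pow_pos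
    (Finset.mem_filter.1 hp).2.pos _, fun P hP hfix => ?_⟩
  set N := addOrderOf P
  have hN : N ≠ 0 := hP.addOrderOf_pos.ne'
  have hfixn : ∀ (c : ℕ), ∀ σ ∈ derivedSeries (Kb ≃ₐ[K] Kb) d, σ • c • P = c • P :=
    fun c σ hσ => by rw [smul_nsmul', hfix σ hσ]
  have hfac : ∀ p ∈ N.primeFactors, p ≤ B := fun p hp => by
    by_contra! hlt
    obtain ⟨hpp, hdvd, -⟩ := Nat.mem_primeFactors.1 hp
    obtain ⟨c, hc⟩ := hdvd
    have h0 := hB p hpp hlt d (c • P)
      (by rw [← mul_nsmul', ← hc, addOrderOf_nsmul_eq_zero]) (hfixn c)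
    have hc0 : 0 < c := Nat.pos_of_ne_zero fun h => hN (by rw [hc, h, mul_zero])
    have := Nat.le_of_dvd hc0 (addOrderOf_dvd_of_nsmul_eq_zero h0)
    rw [show addOrderOf P = p * c from hc] at this
    exact absurd this (not_le.2 ((Nat.lt_mul_iff_one_lt_left hc0).2 hpp.one_lt))
  refine ⟨eq_zero_of_ordCompl hN
    (by rw [← mul_nsmul', mul_comm, mul_nsmul', addOrderOf_nsmul_eq_zero, nsmul_zero])
    fun p hp => ?_, hfac⟩
  have hpp := Nat.prime_of_mem_primeFactors hp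
  obtain ⟨c, hc⟩ := Finset.dvd_prod_of_mem (fun p => p ^ k p) (Finset.mem_filter.2
    ⟨Finset.mem_range.2 (Nat.lt_succ_of_le (hfac p hp)), hpp⟩ : p ∈ S)
  rw [hc, ← mul_nsmul', mul_left_comm, mul_nsmul', mul_comm, mul_nsmul', smul_comm (p ^ k p) c,
    hk p hpp (N.factorization p) ((N / p ^ N.factorization p) • P) (by
      rw [← mul_nsmul', Nat.mul_div_cancel' (Nat.ordProj_dvd N p), addOrderOf_nsmul_eq_zero])
      (hfixn _), nsmul_zero]

end FA.OpenImageNF

end
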