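import Fermat.Agent.OpenImageNF.Unipotent
import Fermat.Agent.IsogenyNF.DetLevel

/-!
# The determinant is the cyclotomic character at all prime powers

A commutator from the open part of `SL₂(ℤ_p)` is unipotent of bounded depth, so the quadratic
equation of a Frobenius element at a slightly higher level gives the determinant.
-/

set_option autoImplicit false
set_option linter.unusedSectionVars false

noncomputable section

namespace FA.OpenImageNF

open WeierstrassCurve Matrix FA.IsogenyNF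
open scoped WeierstrassCurve.Affine

universe u v

variable {K : Type u} [Field K] [NumberField K] {Kb : Type v} [Field Kb] [DecidableEq Kb]
  [Algebra K Kb] [CharZero Kb] [IsAlgClosed Kb] [Algebra.IsAlgebraic K Kb]
  {E : WeierstrassCurve K} [E.IsElliptic]

local notation "M2" => Matrix (Fin 2) (Fin 2)

section Conj

variable {p : ℕ} [hp : Fact p.Prime]

/-- An element which is a unit modulo a positive power of `p` is a unit. -/
theorem isUnit_of_toZModPow {k : ℕ} {x : ℤ_[p]}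
    (h : IsUnit (PadicInt.toZModPow (k + 1) x)) : IsUnit x := by
  by_contra hu
  rw [← mem_nonunits_iff, ← IsLocalRing.mem_maximalIdeal, PadicInt.maximalIdeal_eq_span_p,
    Ideal.mem_span_singleton] at hu
  obtain ⟨z, rfl⟩ := hu
  rw [map_mul, map_natCast] at h
  have h0 := (isUnit_of_mul_isUnit_left h).pow (k + 1)
  rw [← Nat.cast_pow, ZMod.natCast_self] at h0
  have := Fact.mk (Nat.one_lt_pow k.succ_ne_zero hp.out.one_lt)
  exact not_isUnit_zero h0

/-- Generators at a level differ from a Tate basis by an invertible matrix. -/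
theorem exists_conj (B : TateGen Kb p E) {k : ℕ} {P Q : (E.toAffine⁄Kb).Point}
    (h : TorGen E (p ^ (k + 1)) P Q) :
    ∃ U : (M2 ℤ_[p])ˣ, ∀ σ : Kb ≃ₐ[K] Kb,
      h.rep (pow_ne_zero _ hp.out.ne_zero) σ =
        redZ (k + 1) ((↑U⁻¹ : M2 ℤ_[p]) * B.rep σ * (U : M2 ℤ_[p])) := by
  set n := k + 1
  have hn : p ^ n ≠ 0 := pow_ne_zero _ hp.out.ne_zero
  have : NeZero (p ^ n) := ⟨hn⟩
  choose c hc using fun j : Fin 2 => B.surj n (h.coord (Pi.single j 1)) (h.nsmul_coord _)
  set C : M2 ℤ_[p] := Matrix.of fun i j => c j i with hCdef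
  have hx : ∀ x : Fin 2 → ℤ_[p],
      h.coord (PadicInt.toZModPow n ∘ x) = B.φ n (C *ᵥ x) := fun x => by
    let m : Fin 2 → ℕ := fun i => (PadicInt.toZModPow n (x i)).val
    have hm : B.φ n x = B.φ n (fun i => (m i : ℤ_[p])) := B.phi_eq_iff.mpr fun i => by
      rw [map_natCast, ZMod.natCast_zmod_val]
    have hm' : (fun i => (m i : ℤ_[p])) = m 0 • Pi.single 0 1 + m 1 • Pi.single 1 1 := by
      funext i
      fin_cases i <;> simp [nsmul_eq_mul]
    have hx' : PadicInt.toZModPow n ∘ x =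
        m 0 • (Pi.single 0 1 : Fin 2 → ZMod (p ^ n)) + m 1 • Pi.single 1 1 := by
      funext i
      fin_cases i <;> simp [m, nsmul_eq_mul, -ZMod.natCast_val] <;>
        exact (ZMod.natCast_zmod_val _).symm
    rw [B.phi_mulVec_congr _ hm, hm', hx', mulVec_add, mulVec_smul, mulVec_smul,
      mulVec_single_one, mulVec_single_one]
    simp only [map_add, map_nsmul]
    rw [← hc, ← hc]
    rfl
  choose d hd using fun j : Fin 2 => h.coord_surj (B.nsmul_phi n (Pi.single j 1))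
  have hCD : redZ n C * Matrix.of (fun i j => d j i) = 1 := by
    ext i j
    obtain ⟨x, hxd⟩ : ∃ x : Fin 2 → ℤ_[p], PadicInt.toZModPow n ∘ x = d j :=
      ⟨fun a => ((d j a).val : ℤ_[p]), funext fun a => by
        rw [Function.comp_apply, map_natCast, ZMod.natCast_zmod_val]⟩
    have e := B.phi_eq_iff.mp (((hx x).symm.trans (congrArg h.coord hxd)).trans (hd j)) i
    rw [RingHom.map_mulVec, hxd, Pi.single_apply, apply_ite (PadicInt.toZModPow n), map_one,
      map_zero] at e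
    rw [Matrix.one_apply]
    exact e
  have hdet : IsUnit C.det := isUnit_of_toZModPow (k := k) (by
    refine IsUnit.of_mul_eq_one (Matrix.of fun i j => d j i).det ?_
    rw [RingHom.map_det, ← det_mul, hCD, det_one])
  obtain ⟨U, hU⟩ := (Matrix.isUnit_iff_isUnit_det C).2 hdet
  refine ⟨U, fun σ => Matrix.ext_of_mulVec_single fun j => h.coord_injective hn ?_⟩
  have hone : (Pi.single j 1 : Fin 2 → ZMod (p ^ n)) =
      PadicInt.toZModPow n ∘ Pi.single j 1 := funext fun i => by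
    rw [Function.comp_apply, Pi.single_apply, Pi.single_apply, apply_ite (PadicInt.toZModPow n),
      map_one, map_zero]
  have hU1 : C * ((↑U⁻¹ : M2 ℤ_[p]) * B.rep σ * (U : M2 ℤ_[p])) = B.rep σ * C := by
    rw [← hU, ← mul_assoc, ← mul_assoc, Units.mul_inv, one_mul]
  rw [← h.rep_spec, hone, hx, B.rep_spec,
    show redZ n ((↑U⁻¹ : M2 ℤ_[p]) * B.rep σ * (U : M2 ℤ_[p])) *ᵥ
        (PadicInt.toZModPow n ∘ Pi.single j 1) =
      PadicInt.toZModPow n ∘ (((↑U⁻¹ : M2 ℤ_[p]) * B.rep σ * (U : M2 ℤ_[p])) *ᵥ Pi.single j 1) from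
      funext fun i => (RingHom.map_mulVec _ _ _ i).symm, hx, mulVec_mulVec, mulVec_mulVec, hU1]

end Conj

variable (E) in
/-- **The determinant is the cyclotomic character at every prime power.** -/
theorem det_rep_eq (hj : ¬ IsIntegral ℤ E.j) {p k : ℕ} (hp : p.Prime)
    {P Q : (E.toAffine⁄Kb).Point} (h : TorGen E (p ^ (k + 1)) P Q) {σ : Kb ≃ₐ[K] Kb} {a : ℕ}
    (ha : ∀ μ : Kb, μ ^ p ^ (k + 1) = 1 → σ μ = μ ^ a) :
    (h.rep (pow_ne_zero _ hp.ne_zero) σ).det = (a : ZMod (p ^ (k + 1))) := by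
  have := Fact.mk hp
  obtain ⟨B, j, hj0, hlev⟩ := exists_level_det_one_tate Kb p E hj
  obtain ⟨U, hU⟩ := exists_conj B h
  rw [hU σ, ← RingHom.map_det, det_mul, det_mul, mul_right_comm, ← det_mul, Units.inv_mul,
    det_one, one_mul]
  set n := k + 1
  set π : ℤ_[p] := (p : ℤ_[p]) with hπ
  set x : ℤ_[p] := π ^ j with hx
  obtain ⟨g, hg⟩ := hlev !![0, 1; 0, 0] (by simp [det_fin_two])
  obtain ⟨g', hg'⟩ := hlev !![0, 0; 1, 0] (by simp [det_fin_two])
  have hg1 : B.rep g = !![1, x; 0, 1] := by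
    rw [hg]; ext i j'; fin_cases i <;> fin_cases j' <;> simp [hx]
  have hg2 : B.rep g' = !![1, 0; x, 1] := by
    rw [hg']; ext i j'; fin_cases i <;> fin_cases j' <;> simp [hx]
  have hg1' : B.rep g⁻¹ = !![1, -x; 0, 1] := left_inv_eq_right_inv
    (by rw [← map_mul, inv_mul_cancel, map_one])
    (by rw [hg1]; simp [one_fin_two])
  have hg2' : B.rep g'⁻¹ = !![1, 0; -x, 1] := left_inv_eq_right_inv
    (by rw [← map_mul, inv_mul_cancel, map_one])
    (by rw [hg2]; simp [one_fin_two])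
  set γ := g * g' * g⁻¹ * g'⁻¹ with hγ
  have hγmem : γ ∈ commutator (Kb ≃ₐ[K] Kb) := by
    rw [commutator_eq_closure]; exact Subgroup.subset_closure ⟨g, g', rfl⟩
  have hγdet : (B.rep γ).det = 1 := by
    rw [hγ, map_mul, map_mul, map_mul, hg1, hg2, hg1', hg2']
    simp [det_fin_two]
    ring
  have hγ01 : B.rep γ 0 1 = -(π ^ (3 * j)) := by
    rw [hγ, map_mul, map_mul, map_mul, hg1, hg2, hg1', hg2']
    simp [Matrix.mul_apply, Fin.sum_univ_two, hx]
    ring
  -- a representative with a shallow entry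
  obtain ⟨τ, hτ, hτdet, i, u, hi, he⟩ : ∃ τ, (∀ μ : Kb, μ ^ p ^ n = 1 → τ μ = μ ^ a) ∧
      (B.rep τ).det = (B.rep σ).det ∧
      ∃ (i : ℕ) (u : ℤ_[p]ˣ), i < 3 * j + 1 ∧ B.rep τ 0 1 = π ^ i * u := by
    have key : ∀ y : ℤ_[p], ¬ π ^ (3 * j + 1) ∣ y →
        ∃ (i : ℕ) (u : ℤ_[p]ˣ), i < 3 * j + 1 ∧ y = π ^ i * u := fun y hy => by
      have hy0 : y ≠ 0 := fun h0 => hy (h0 ▸ dvd_zero _)
      refine ⟨y.valuation, PadicInt.unitCoeff hy0, ?_, ?_⟩
      · by_contra hle
        refine hy ?_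
        rw [PadicInt.unitCoeff_spec hy0]
        exact (pow_dvd_pow π (not_lt.1 hle)).mul_left _
      · conv_lhs => rw [PadicInt.unitCoeff_spec hy0, mul_comm]
    by_cases hd : π ^ (3 * j + 1) ∣ B.rep σ 0 1
    swap
    · exact ⟨σ, ha, rfl, key _ hd⟩
    refine ⟨σ * γ, fun μ hμ => ?_, by rw [map_mul, det_mul, hγdet, mul_one], key _ fun hd' => ?_⟩
    · rw [AlgEquiv.mul_apply, commutator_fix_root (pow_ne_zero _ hp.ne_zero) hγmem hμ, ha μ hμ]
    rw [map_mul, Matrix.mul_apply, Fin.sum_univ_two, hγ01, dvd_add_left (hd.mul_right _),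
      mul_neg, dvd_neg, pow_succ', mul_dvd_mul_iff_right (pow_ne_zero _ (NeZero.ne π))] at hd'
    have hunit : IsUnit (B.rep σ).det := ((Group.isUnit σ).map B.rep).map Matrix.detMonoidHom
    have hdvd : π ∣ (B.rep σ).det := by
      rw [det_fin_two]
      exact (hd'.mul_right _).sub (((dvd_pow_self π (3 * j).succ_ne_zero).trans hd).mul_right _)
    exact PadicInt.prime_p.not_isUnit (isUnit_of_dvd_unit hdvd hunit)
  rw [← hτdet]
  set c := 3 * j + 1
  set m := n + c
  set M := B.rep τ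
  obtain ⟨F⟩ := exists_frobPlace E τ (pow_ne_zero m hp.ne_zero)
  obtain ⟨t, ht⟩ := F.exists_quadratic
  set q : ℤ_[p] := (((F.l : ℤ) ^ F.n : ℤ) : ℤ_[p]) with hq
  have hquad : ∀ i' j' : Fin 2, π ^ m ∣ (M * M - (t : ℤ_[p]) • M + q • 1) i' j' := fun i' j' => by
    have h0 : B.φ m ((M * M - (t : ℤ_[p]) • M + q • 1) *ᵥ Pi.single j' 1) = 0 := by
      rw [add_mulVec, sub_mulVec, ← mulVec_mulVec, smul_mulVec, smul_mulVec, one_mulVec,
        map_add, map_sub, hq, Int.cast_smul_eq_zsmul, Int.cast_smul_eq_zsmul, map_zsmul, map_zsmul,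
        ← B.rep_spec, ← B.rep_spec]
      exact ht _ (B.nsmul_phi _ _)
    have h1 := (B.ker _ _).1 h0 i'
    rwa [mulVec_single_one, Matrix.col_apply, ← RingHom.mem_ker, PadicInt.ker_toZModPow,
      Ideal.mem_span_singleton] at h1
  have h01 := hquad 0 1
  have h00 := hquad 0 0
  simp [Matrix.mul_apply, Fin.sum_univ_two] at h01 h00
  set T := M 0 0 + M 1 1 - (t : ℤ_[p])
  have hT : π ^ n ∣ T := by
    have h1 : π ^ m ∣ π ^ i * (T * u) := by
      convert h01 using 1
      rw [he]; simp only [T]; ring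
    have h2 : π ^ (n + i) ∣ π ^ i * (T * u) := (pow_dvd_pow π (by omega)).trans h1
    rw [add_comm, pow_add, mul_dvd_mul_iff_left (pow_ne_zero _ (NeZero.ne π))] at h2
    exact (u.isUnit.dvd_mul_right).1 h2
  have hdq : π ^ n ∣ M.det - q := by
    have h2 : π ^ n ∣ T * M 0 0 - (M.det - q) := by
      convert ((pow_dvd_pow π (show n ≤ m by omega)).trans h00) using 1
      simp only [T, det_fin_two]; ring
    exact (dvd_sub_right (hT.mul_right _)).1 h2
  have hdet : PadicInt.toZModPow n M.det = PadicInt.toZModPow n q := by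
    rw [← sub_eq_zero, ← map_sub, ← RingHom.mem_ker, PadicInt.ker_toZModPow,
      Ideal.mem_span_singleton]
    exact hdq
  have : NeZero (p ^ n) := ⟨pow_ne_zero _ hp.ne_zero⟩
  have : NeZero ((p ^ n : ℕ) : Kb) := ⟨Nat.cast_ne_zero.2 (pow_ne_zero _ hp.ne_zero)⟩
  obtain ⟨μ, hμ⟩ := HasEnoughRootsOfUnity.exists_primitiveRoot Kb (p ^ n)
  have e := F.congr_root μ (by rw [pow_add p n c, pow_mul, hμ.pow_eq_one, one_pow])
  rw [hτ μ hμ.pow_eq_one, (hμ.isOfFinOrder (pow_ne_zero _ hp.ne_zero)).pow_eq_pow_iff_modEq,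
    ← hμ.eq_orderOf] at e
  rw [hdet, hq, map_intCast, (ZMod.natCast_eq_natCast_iff ..).2 e]
  push_cast
  rfl

end FA.OpenImageNF

end
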