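import Fermat.Agent.OpenImageNF.SmallPrime
import Fermat.Agent.OpenImageNF.CyclotomicIndex
import Fermat.Agent.IsogenyNF.GLAdelic

/-!
# One level for all `N`

The determinant is matched over the field of the torsion of bounded levels at the small primes, the
small primes are independent through commutators, and commutators of the automorphisms fixing their
parts reach every matrix of determinant one at the large primes.
-/

set_option autoImplicit false
set_option linter.unusedSectionVars false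

noncomputable section

namespace FA.OpenImageNF

open WeierstrassCurve Matrix FA.IsogenyNF
open scoped WeierstrassCurve.Affine

universe u v

variable {K : Type u} [Field K] [NumberField K] {Kb : Type v} [Field Kb] [DecidableEq Kb]
  [Algebra K Kb] [CharZero Kb] [IsAlgClosed Kb] [Algebra.IsAlgebraic K Kb]

/-- Generators at a level restrict to generators at the powers of its primes. -/
theorem torGen_part {E : WeierstrassCurve K} [E.IsElliptic] {N p : ℕ} (hN : N ≠ 0)
    (hp : p ∈ N.primeFactors) {P Q : (E.toAffine⁄Kb).Point} (h : TorGen E N P Q) :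
    TorGen E (p ^ (N.factorization p - 1 + 1)) ((N / p ^ N.factorization p) • P)
      ((N / p ^ N.factorization p) • Q) := by
  obtain ⟨he, hm, hc⟩ := ordCompl_spec hN hp
  rw [he]
  exact (hm.symm ▸ h :
    TorGen E (p ^ N.factorization p * (N / p ^ N.factorization p)) P Q).of_coprime hc

variable (E : WeierstrassCurve K) [E.IsElliptic]

variable (Kb) in
/-- **One level** decides the image in `GL₂(ℤ / N)` for every `N`. -/
theorem exists_level_matrix (hj : ¬ IsIntegral ℤ E.j) :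
    ∃ m : ℕ, m ≠ 0 ∧ ∀ (N : ℕ) (hN : N ≠ 0) (P Q : (E.toAffine⁄Kb).Point) (h : TorGen E N P Q)
      (M : Matrix (Fin 2) (Fin 2) (ZMod N)), IsUnit M.det →
      (∃ Y, M = 1 + ((N.gcd m : ℕ) : ZMod N) • Y) →
      ∃ σ : Kb ≃ₐ[K] Kb, h.rep hN σ = M := by
  classical
  obtain ⟨B₁, hB₁⟩ := exists_bound_det_one (Kb := Kb) E hj
  set B := B₁ + 4
  set S : Finset ℕ := (Finset.range (B + 1)).filter Nat.Prime
  have hmemS : ∀ {p : ℕ}, p ∈ S ↔ p ≤ B ∧ p.Prime := fun {p} => by
    simp [S]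
  have hSp : ∀ q ∈ S, q.Prime := fun q hq => (hmemS.1 hq).2
  have hind : ∀ p, ∃ c : ℕ, p ∈ S → ∀ (e : ℕ → ℕ) (k : ℕ) (P Q : (E.toAffine⁄Kb).Point)
      (h : TorGen E (p ^ (k + 1)) P Q) (X : MatN p (k + 1)) (hn : p ^ (k + 1) ≠ 0), X.det = 1 →
      (∃ Y, X = 1 + ((p ^ c : ℕ) : ZMod (p ^ (k + 1))) • Y) →
      ∃ τ ∈ commutator (Kb ≃ₐ[K] Kb),
        (∀ q ∈ S, q ≠ p → ∀ R : (E.toAffine⁄Kb).Point, q ^ e q • R = 0 → τ • R = R) ∧
          h.rep hn τ = X := fun p => by
    by_cases hp : p ∈ S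
    · obtain ⟨c, hc⟩ := exists_indep (Kb := Kb) E hj (hSp p hp) S hSp
      exact ⟨c, fun _ e k P Q h X _ => hc e k P Q h X⟩
    · exact ⟨0, fun h => absurd h hp⟩
  choose c hc using hind
  set m₁ := ∏ p ∈ S, p ^ c p
  have hm₁ : m₁ ≠ 0 := Finset.prod_ne_zero_iff.2 fun p hp => pow_ne_zero _ (hSp p hp).ne_zero
  -- the field of the torsion of level `m₁`
  set F : IntermediateField K Kb := torField Kb E m₁
  have : FiniteDimensional K F := by
    have hfin : ({R : (E.toAffine⁄Kb).Point | m₁ • R = 0}).Finite := finite_nsmul_eq_zero hm₁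
    have := ((hfin.image FA.ClassNumberOne.xP).union (hfin.image FA.ClassNumberOne.yP)).to_subtype
    exact IntermediateField.finiteDimensional_adjoin fun x _ => Algebra.IsIntegral.isIntegral x
  have : NumberField F := NumberField.of_module_finite K F
  have : Algebra.IsAlgebraic F Kb := Algebra.IsAlgebraic.tower_top (K := K) F
  obtain ⟨N₀, hN₀, hcyc⟩ := exists_cyclotomic_open F Kb
  refine ⟨m₁ * N₀, mul_ne_zero hm₁ hN₀, fun N hN P Q h M hM ⟨Y, hY⟩ => ?_⟩
  have : NeZero N := ⟨hN⟩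
  set g := N.gcd (m₁ * N₀)
  let e : ℕ → ℕ := fun p => N.factorization p - 1
  let ξ : ℕ → ℕ := fun p => N / p ^ N.factorization p
  have hgen : GenFamily E N.primeFactors e (fun p => ξ p • P) (fun p => ξ p • Q) := fun p hp =>
    torGen_part hN hp h
  have hexp : ∀ p ∈ N.primeFactors, e p + 1 = N.factorization p := fun p hp =>
    (ordCompl_spec hN hp).1
  have hdvd : ∀ p ∈ N.primeFactors, p ^ (e p + 1) ∣ N := fun p hp => by
    rw [hexp p hp]; exact Nat.ordProj_dvd N p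
  have hne : ∀ p ∈ N.primeFactors, p ^ (e p + 1) ≠ 0 := fun p hp =>
    pow_ne_zero _ (Nat.prime_of_mem_primeFactors hp).ne_zero
  -- the determinant
  have hcop : M.det.val.Coprime N := (ZMod.isUnit_iff_coprime _ _).1 (by
    rwa [ZMod.natCast_zmod_val])
  have hcong : M.det.val ≡ 1 [MOD N.gcd N₀] := by
    refine Nat.ModEq.of_dvd (Nat.dvd_gcd (Nat.gcd_dvd_left _ _)
      ((Nat.gcd_dvd_right _ _).trans (dvd_mul_left N₀ m₁)) : N.gcd N₀ ∣ g) ?_
    rw [← ZMod.natCast_eq_natCast_iff, ← map_natCast (ZMod.castHom (Nat.gcd_dvd_left N _)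
      (ZMod g)), ZMod.natCast_zmod_val, RingHom.map_det, hY, map_add, map_one, Nat.cast_one]
    have h0 : (ZMod.castHom (Nat.gcd_dvd_left N (m₁ * N₀)) (ZMod g)).mapMatrix
        (((g : ℕ) : ZMod N) • Y) = 0 := by
      ext i j
      show ZMod.castHom (Nat.gcd_dvd_left N (m₁ * N₀)) (ZMod g) ((g : ZMod N) * Y i j) = 0
      rw [map_mul, map_natCast, ZMod.natCast_self, zero_mul]
    rw [h0, add_zero, det_one]
  obtain ⟨τ', hτ'⟩ := hcyc N hN _ hcop hcong
  set τ₀ : Kb ≃ₐ[K] Kb := τ'.restrictScalars K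
  have hτfix : ∀ R : (E.toAffine⁄Kb).Point, m₁ • R = 0 → τ₀ • R = R := fun R hR =>
    smul_torField E (fun x hx => τ'.commutes ⟨x, hx⟩) hR
  -- the matrices left at each prime
  let A : ∀ p : ℕ, MatN p (e p + 1) := fun p =>
    if hp : p ∈ N.primeFactors then
      (hgen p hp).rep (hne p hp) τ₀⁻¹ * (ZMod.castHom (hdvd p hp) _).mapMatrix M
    else 1
  have hA : ∀ p ∈ N.primeFactors, (A p).det = 1 := fun p hp => by
    have hdet := det_rep_eq (Kb := Kb) E hj (Nat.prime_of_mem_primeFactors hp) (hgen p hp)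
      (σ := τ₀) (a := M.det.val) fun μ hμ => hτ' μ <| by
        obtain ⟨d, hd⟩ := hdvd p hp
        rw [hd, pow_mul, hμ, one_pow]
    have hone :
        ((hgen p hp).rep (hne p hp) τ₀⁻¹).det * ((hgen p hp).rep (hne p hp) τ₀).det = 1 := by
      rw [← det_mul, ← map_mul, inv_mul_cancel, map_one, det_one]
    have hcast : ((ZMod.castHom (hdvd p hp) (ZMod (p ^ (e p + 1)))).mapMatrix M).det =
        (M.det.val : ZMod (p ^ (e p + 1))) := by
      rw [← RingHom.map_det, ← map_natCast (ZMod.castHom (hdvd p hp) (ZMod (p ^ (e p + 1)))),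
        ZMod.natCast_zmod_val]
    simp only [A, dif_pos hp, det_mul, hcast, ← hdet, hone]
  set T := S.filter (· ∈ N.primeFactors)
  have hT : ∀ {p}, p ∈ T ↔ p ∈ S ∧ p ∈ N.primeFactors := Finset.mem_filter
  have hAc : ∀ p ∈ T,
      ∃ Z, A p = 1 + ((p ^ c p : ℕ) : ZMod (p ^ (e p + 1))) • Z := fun p hp => by
    obtain ⟨hpS, hpN⟩ := hT.1 hp
    have hdp : p ^ c p ∣ m₁ := Finset.dvd_prod_of_mem (fun q => q ^ c q) hpS
    obtain ⟨Z₁, hZ₁⟩ := exists_eq_one_add_of_fix (hne p hpN) (hgen p hpN)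
      (M := (hgen p hpN).rep (hne p hpN) τ₀⁻¹) (d := p ^ c p) fun v hv => by
      rw [← (hgen p hpN).rep_spec]
      obtain ⟨d, hd⟩ := hdp
      exact inv_smul_eq_iff.2 (hτfix _ (by rw [hd, mul_comm, mul_nsmul', hv, nsmul_zero])).symm
    -- the gcd is a multiple of the congruence level
    obtain ⟨z, hz⟩ : ∃ z : ZMod (p ^ (e p + 1)),
        (g : ZMod (p ^ (e p + 1))) = ((p ^ c p : ℕ) : ZMod _) * z := by
      rcases le_or_gt (c p) (e p + 1) with hle | hgt
      · obtain ⟨d, hd⟩ := Nat.dvd_gcd ((pow_dvd_pow p hle).trans (hdvd p hpN))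
          (hdp.trans (dvd_mul_right m₁ N₀))
        exact ⟨d, by rw [show g = p ^ c p * d from hd, Nat.cast_mul]⟩
      · obtain ⟨d, hd⟩ := Nat.dvd_gcd (hdvd p hpN)
          (((pow_dvd_pow p hgt.le).trans hdp).trans (dvd_mul_right m₁ N₀))
        exact ⟨0, by
          rw [show g = p ^ (e p + 1) * d from hd, Nat.cast_mul, ZMod.natCast_self, zero_mul,
            mul_zero]⟩
    have hMp : (ZMod.castHom (hdvd p hpN) (ZMod (p ^ (e p + 1)))).mapMatrix M =
        1 + ((p ^ c p : ℕ) : ZMod (p ^ (e p + 1))) •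
          (z • (ZMod.castHom (hdvd p hpN) (ZMod (p ^ (e p + 1)))).mapMatrix Y) := by
      rw [hY, map_add, map_one, smul_smul, ← hz]
      congr 1
      ext i j
      show ZMod.castHom (hdvd p hpN) (ZMod (p ^ (e p + 1))) ((g : ZMod N) * Y i j) =
        (g : ZMod (p ^ (e p + 1))) * ZMod.castHom (hdvd p hpN) (ZMod (p ^ (e p + 1))) (Y i j)
      rw [map_mul, map_natCast]
    refine ⟨Z₁ + z • (ZMod.castHom (hdvd p hpN) (ZMod (p ^ (e p + 1)))).mapMatrix Y +
      Z₁ * (((p ^ c p : ℕ) : ZMod (p ^ (e p + 1))) •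
        (z • (ZMod.castHom (hdvd p hpN) (ZMod (p ^ (e p + 1)))).mapMatrix Y)), ?_⟩
    simp only [A, dif_pos hpN]
    rw [hZ₁, hMp]
    simp only [mul_add, add_mul, one_mul, mul_one, smul_mul_assoc, smul_add]
    abel
  -- the small primes
  have hlow : ∀ s ⊆ T, ∃ τ ∈ commutator (Kb ≃ₐ[K] Kb), ∀ p (hp : p ∈ T),
      (hgen p (hT.1 hp).2).rep (hne p (hT.1 hp).2) τ = if p ∈ s then A p else 1 := by
    intro s
    induction s using Finset.induction_on with
    | empty => exact fun _ => ⟨1, one_mem _, fun p _ => by simp⟩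
    | insert a t hat ih =>
      intro hs
      obtain ⟨τ, hτ, hτr⟩ := ih ((Finset.subset_insert a t).trans hs)
      have haT := hs (Finset.mem_insert_self a t)
      obtain ⟨haS, haN⟩ := hT.1 haT
      obtain ⟨ρ, hρ, hρfix, hρr⟩ := hc a haS (fun q => N.factorization q) (e a) _ _
        (hgen a haN) (A a) (hne a haN) (hA a haN) (hAc a haT)
      refine ⟨τ * ρ, mul_mem hτ hρ, fun p hp => ?_⟩
      rw [map_mul, hτr p hp]
      rcases eq_or_ne p a with rfl | hpa
      · rw [if_neg hat, one_mul, if_pos (Finset.mem_insert_self p t), hρr]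
      · have h1 : (hgen p (hT.1 hp).2).rep (hne p (hT.1 hp).2) ρ = 1 :=
          Matrix.ext_of_mulVec_single fun i => (hgen p (hT.1 hp).2).coord_injective
            (hne p (hT.1 hp).2) (by
              rw [← (hgen p (hT.1 hp).2).rep_spec, one_mulVec]
              exact hρfix p (hT.1 hp).1 hpa _ (by
                show p ^ N.factorization p • _ = 0
                rw [← hexp p (hT.1 hp).2]
                exact (hgen p (hT.1 hp).2).nsmul_coord _))
        rw [h1, mul_one, if_congr (Finset.mem_insert.trans (or_iff_right hpa)) rfl rfl]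
  obtain ⟨τ, hτ, hτr⟩ := hlow T subset_rfl
  -- the large primes, by commutators of what fixes the small parts
  set L := N.primeFactors.filter (· ∉ S)
  have hL : ∀ {p}, p ∈ L ↔ p ∈ N.primeFactors ∧ p ∉ S := Finset.mem_filter
  have hLB : ∀ p ∈ L, p.Prime ∧ B < p := fun p hp => by
    obtain ⟨hpN, hpS⟩ := hL.1 hp
    have hpp := Nat.prime_of_mem_primeFactors hpN
    exact ⟨hpp, not_le.1 fun hle => hpS (hmemS.2 ⟨hle, hpp⟩)⟩
  let R : ∀ p : ℕ, (Kb ≃ₐ[K] Kb) →* MatN p (e p + 1) := fun p =>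
    if hp : p ∈ N.primeFactors then (hgen p hp).rep (hne p hp) else 1
  have hR : ∀ p (hp : p ∈ N.primeFactors), R p = (hgen p hp).rep (hne p hp) := fun p hp =>
    dif_pos hp
  let Γ : Subgroup (Kb ≃ₐ[K] Kb) := ⨅ q ∈ T, (R q).ker
  have hΓ : ∀ γ, γ ∈ Γ ↔ ∀ q ∈ T, R q γ = 1 := fun γ => by
    simp only [Γ, Subgroup.mem_iInf, MonoidHom.mem_ker]
  let ρ : ∀ p : ℕ, commutator Γ →* MatN p (e p + 1) := fun p =>
    ((R p).comp Γ.subtype).comp (commutator Γ).subtype
  have hρdet : ∀ p ∈ L, ∀ γ, (ρ p γ).det = 1 := fun p _ γ =>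
    det_eq_one_of_commutator ((R p).comp Γ.subtype) γ.2
  have hρsl : ∀ p ∈ L, ∀ X : Matrix (Fin 2) (Fin 2) (ZMod p), X.det = 1 →
      ∃ γ, modP (Nat.succ_ne_zero _) (ρ p γ) = X := fun p hp X hX => by
    obtain ⟨hpp, hlt⟩ := hLB p hp
    have := Fact.mk hpp
    have hpN := (hL.1 hp).1
    let ψ : (Kb ≃ₐ[K] Kb) →* Matrix (Fin 2) (Fin 2) (ZMod p) :=
      (modP (p := p) (e p).succ_ne_zero).toMonoidHom.comp (R p)
    have hsl : ∀ Z : Matrix (Fin 2) (Fin 2) (ZMod p), Z.det = 1 → ∃ γ, ψ γ = Z := fun Z hZ => by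
      obtain ⟨γ, hγ⟩ := exists_modP_eq E hpp (hgen p hpN) (hB₁ p hpp (by omega)) hZ
      exact ⟨γ, (congrArg (fun f => modP (p := p) (e p).succ_ne_zero (f γ)) (hR p hpN)).trans hγ⟩
    have hψinv : ∀ γ, ψ γ⁻¹ = (ψ γ)⁻¹ := fun γ =>
      (Matrix.inv_eq_right_inv (by rw [← map_mul, mul_inv_cancel, map_one])).symm
    set k := ∏ q ∈ T, Nat.card (GL (Fin 2) (ZMod q)) * q ^ e q with hk
    have hpk : ¬ p ∣ k := by
      rw [hk, Prime.dvd_finsetProd_iff hpp.prime]
      rintro ⟨q, hq, hd⟩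
      obtain ⟨hqB, hqp⟩ := hmemS.1 (hT.1 hq).1
      refine not_dvd_card hpp hqp ?_ _ hd
      rcases eq_or_ne q 2 with rfl | hq2
      · omega
      obtain ⟨a, ha⟩ := hpp.odd_of_ne_two (by omega)
      obtain ⟨b, hb⟩ := hqp.odd_of_ne_two hq2
      omega
    obtain ⟨u₀, hu₀⟩ := hsl !![1, 1; 0, 1] (by simp [det_fin_two])
    have huψ : ∀ l : ℕ, ψ (u₀ ^ l) = !![1, (l : ZMod p); 0, 1] := fun l => by
      rw [map_pow, hu₀]
      induction l with
      | zero => simp [one_fin_two]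
      | succ l ih => rw [pow_succ, ih]; simp [add_comm]
    have htriv : u₀ ^ k ∈ Γ := (hΓ _).2 fun q hq => by
      have := Fact.mk (hSp q (hT.1 hq).1)
      obtain ⟨i, hi⟩ := Finset.dvd_prod_of_mem
        (fun q => Nat.card (GL (Fin 2) (ZMod q)) * q ^ e q) hq
      rw [hk, hi, pow_mul, map_pow, pow_card_level, one_pow]
    have hall : ∀ Z : Matrix (Fin 2) (Fin 2) (ZMod p), Z.det = 1 →
        ∃ γ : Γ, ψ (γ : Kb ≃ₐ[K] Kb) = Z := fun Z hZ =>
      MonoidHom.mem_mrange.1 (mem_of_transvection (MonoidHom.mrange (ψ.comp Γ.subtype))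
        (fun U V hU hV => by
          obtain ⟨γ, rfl⟩ := MonoidHom.mem_mrange.1 hV
          obtain ⟨b, rfl⟩ := hsl U hU
          refine ⟨⟨b * γ * b⁻¹, (hΓ _).2 fun q hq => ?_⟩, ?_⟩
          · rw [map_mul, map_mul, (hΓ _).1 γ.2 q hq, mul_one, ← map_mul, mul_inv_cancel, map_one]
          · show ψ (b * γ * b⁻¹) = ψ b * ψ γ * (ψ b)⁻¹
            rw [map_mul, map_mul, hψinv])
        (fun h => hpk ((ZMod.natCast_eq_zero_iff _ _).mp h)) ⟨⟨_, htriv⟩, huψ k⟩ hZ)
    obtain ⟨γ, hγ, hγψ⟩ := exists_commutator_modP (by omega) (ψ.comp Γ.subtype) hall hX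
    exact ⟨⟨γ, hγ⟩, hγψ⟩
  let A' : ∀ p : ℕ, MatN p (e p + 1) := fun p => R p τ⁻¹ * A p
  have hA' : ∀ p ∈ L, (A' p).det = 1 := fun p hp => by
    rw [det_mul, det_eq_one_of_commutator (R p) (inv_mem hτ), hA p (hL.1 hp).1, mul_one]
  obtain ⟨γ, hγ⟩ := exists_family_eq e ρ L
    (fun p hp => ⟨(hLB p hp).1, by have := (hLB p hp).2; omega⟩) hρdet hρsl A' hA'
  set γ' : Kb ≃ₐ[K] Kb := ((γ : Γ) : Kb ≃ₐ[K] Kb)
  have hparts : ∀ p (hp : p ∈ N.primeFactors), (hgen p hp).rep (hne p hp) (τ₀ * (τ * γ')) =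
      (ZMod.castHom (hdvd p hp) (ZMod (p ^ (e p + 1)))).mapMatrix M := fun p hp => by
    have hfinal : (hgen p hp).rep (hne p hp) (τ * γ') = A p := by
      by_cases hpS : p ∈ S
      · have hpT : p ∈ T := hT.2 ⟨hpS, hp⟩
        rw [map_mul, hτr p hpT, if_pos hpT, ← hR p hp, (hΓ _).1 (γ : Γ).2 p hpT, mul_one]
      · rw [← hR p hp, map_mul, show R p γ' = A' p from hγ p (hL.2 ⟨hp, hpS⟩)]
        show R p τ * (R p τ⁻¹ * A p) = A p
        rw [← mul_assoc, ← map_mul, mul_inv_cancel, map_one, one_mul]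
    rw [map_mul, hfinal]
    simp only [A, dif_pos hp]
    rw [← mul_assoc, ← map_mul, mul_inv_cancel, map_one, one_mul]
  -- compare on each primary part
  refine ⟨τ₀ * (τ * γ'), Matrix.ext_of_mulVec_single fun i => h.coord_injective hN ?_⟩
  rw [← h.rep_spec]
  have hred : ∀ p (hp : p ∈ N.primeFactors) (w : Fin 2 → ZMod N),
      ξ p • h.coord w = (hgen p hp).coord (ZMod.castHom (hdvd p hp) _ ∘ w) := fun p hp w => by
    have hw : w = ![(((w 0).val : ℤ) : ZMod N), (((w 1).val : ℤ) : ZMod N)] :=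
      funext fun i => by fin_cases i <;> simp
    have hw' : ZMod.castHom (hdvd p hp) (ZMod (p ^ (e p + 1))) ∘ w =
        ![(((w 0).val : ℤ) : ZMod _), (((w 1).val : ℤ) : ZMod _)] := funext fun i => by
      conv_lhs => rw [hw]
      fin_cases i <;> simp
    rw [hw', (hgen p hp).coord_intCast]
    conv_lhs => rw [hw]
    rw [h.coord_intCast, nsmul_add, smul_comm (ξ p), smul_comm (ξ p) _ Q]
  refine sub_eq_zero.1 (eq_zero_of_ordCompl hN ?_ fun p hp => ?_)
  · rw [nsmul_sub, ← smul_nsmul', h.nsmul_coord, h.nsmul_coord, smul_zero, sub_zero]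
  · show ξ p • _ = 0
    rw [nsmul_sub, ← smul_nsmul', hred p hp, hred p hp, (hgen p hp).rep_spec (hne p hp),
      hparts p hp, sub_eq_zero]
    exact congrArg (hgen p hp).coord
      (funext fun j => (RingHom.map_mulVec _ M (Pi.single i 1) j).symm)

end FA.OpenImageNF

end
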