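import Fermat.Agent.OpenImageNF.DetCyclotomic

/-!
# Independence at a small prime

Powers of unipotent commutators in the open part of `SL₂(ℤ_p)`, with exponents killing the torsion
of bounded levels at other primes up to a bounded power of `p`, still fill an open part.
-/

set_option autoImplicit false
set_option linter.unusedSectionVars false

noncomputable section

namespace FA.OpenImageNF

open WeierstrassCurve Matrix FA.IsogenyNF FA.PadicImage
open scoped WeierstrassCurve.Affine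

universe u v

variable {K : Type u} [Field K] [NumberField K] {Kb : Type v} [Field Kb] [DecidableEq Kb]
  [Algebra K Kb] [CharZero Kb] [IsAlgClosed Kb] [Algebra.IsAlgebraic K Kb]
  {E : WeierstrassCurve K} [E.IsElliptic]

local notation "M2" => Matrix (Fin 2) (Fin 2)

/-- An element of the commutator subgroup has determinant one. -/
theorem det_eq_one_of_commutator {G R : Type*} [Group G] [CommRing R] (ρ : G →* M2 R) {g : G}
    (hg : g ∈ commutator G) : (ρ g).det = 1 := by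
  have h1 := Abelianization.commutator_subset_ker
    ((Matrix.detMonoidHom.comp ρ).toHomUnits) hg
  rw [MonoidHom.mem_ker] at h1
  exact congrArg Units.val h1

/-- In coordinates, fixing the points killed by `d` is congruence to one modulo `d`. -/
theorem exists_eq_one_add_of_fix {n : ℕ} (hn : n ≠ 0) {P Q : (E.toAffine⁄Kb).Point}
    (h : TorGen E n P Q) {M : M2 (ZMod n)} {d : ℕ}
    (hM : ∀ v, d • h.coord v = 0 → h.coord (M *ᵥ v) = h.coord v) :
    ∃ Y : M2 (ZMod n), M = 1 + (d : ZMod n) • Y := by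
  have : NeZero n := ⟨hn⟩
  obtain ⟨w, hw⟩ := Nat.gcd_dvd_right n d
  obtain ⟨n', hn'⟩ := Nat.gcd_dvd_left n d
  have hentry : ∀ i j, ∃ z : ZMod n, (M - 1) i j = (d : ZMod n) * z := fun i j => by
    have h0 : h.coord (M *ᵥ (n' • Pi.single j 1)) = h.coord (n' • Pi.single j 1) := hM _ (by
      rw [map_nsmul, ← mul_nsmul', hw, mul_comm (n.gcd d) w, mul_assoc, ← hn', mul_nsmul',
        h.nsmul_coord, nsmul_zero])
    have h1 := congrFun (h.coord_injective hn h0) i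
    rw [mulVec_smul, mulVec_single_one] at h1
    simp only [Pi.smul_apply, Matrix.col_apply, nsmul_eq_mul] at h1
    have h2 : (n' : ZMod n) * (M - 1) i j = 0 := by
      rw [Matrix.sub_apply, mul_sub, h1, Matrix.one_apply, Pi.single_apply, sub_self]
    have h3 : n ∣ n' * ((M - 1) i j).val := by
      rw [← ZMod.natCast_eq_zero_iff, Nat.cast_mul, ZMod.natCast_zmod_val]
      exact h2
    have hpos : 0 < n' := Nat.pos_of_ne_zero fun h => hn (by rw [hn', h, mul_zero])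
    have h4 : n.gcd d ∣ ((M - 1) i j).val :=
      Nat.dvd_of_mul_dvd_mul_left hpos (((mul_comm _ _).trans hn'.symm).dvd.trans h3)
    obtain ⟨z, hz⟩ := h4
    refine ⟨(Nat.gcdB n d : ZMod n) * z, ?_⟩
    have hb : ((n.gcd d : ℕ) : ZMod n) = (d : ZMod n) * (Nat.gcdB n d : ZMod n) := by
      have := congrArg (Int.cast : ℤ → ZMod n) (Nat.gcd_eq_gcd_ab n d)
      simpa using this
    rw [← mul_assoc, ← hb, ← Nat.cast_mul, ← hz, ZMod.natCast_zmod_val]
  choose Y hY using hentry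
  refine ⟨Matrix.of Y, Matrix.ext fun i j => ?_⟩
  rw [Matrix.add_apply, Matrix.smul_apply, smul_eq_mul, Matrix.of_apply, ← hY, Matrix.sub_apply,
    add_sub_cancel]

/-- Powers fixing the points killed by a power of a prime. -/
theorem pow_card_smul {q : ℕ} (hq : q.Prime) (n : ℕ) (σ : Kb ≃ₐ[K] Kb)
    {R : (E.toAffine⁄Kb).Point} (hR : q ^ n • R = 0) :
    σ ^ (Nat.card (GL (Fin 2) (ZMod q)) * q ^ n) • R = R := by
  have := Fact.mk hq
  rcases n with _ | j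
  · rw [pow_zero, one_nsmul] at hR
    rw [hR, smul_zero]
  obtain ⟨P, Q, h⟩ := exists_torGen_level (Kb := Kb) E (pow_ne_zero (j + 1) hq.ne_zero)
  obtain ⟨v, rfl⟩ := h.coord_surj hR
  rw [h.rep_spec (pow_ne_zero _ hq.ne_zero), show Nat.card (GL (Fin 2) (ZMod q)) * q ^ (j + 1) =
      Nat.card (GL (Fin 2) (ZMod q)) * q ^ j * q by ring, pow_mul, map_pow,
    pow_card_level, one_pow, one_mulVec]

variable (E) in
/-- **Independence at a small prime.** -/
theorem exists_indep (hj : ¬ IsIntegral ℤ E.j) {p : ℕ} (hp : p.Prime) (S : Finset ℕ)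
    (hS : ∀ q ∈ S, q.Prime) :
    ∃ c : ℕ, ∀ (e : ℕ → ℕ) (k : ℕ) (P Q : (E.toAffine⁄Kb).Point) (h : TorGen E (p ^ (k + 1)) P Q)
      (X : MatN p (k + 1)), X.det = 1 → (∃ Y, X = 1 + ((p ^ c : ℕ) : ZMod (p ^ (k + 1))) • Y) →
      ∃ τ ∈ commutator (Kb ≃ₐ[K] Kb),
        (∀ q ∈ S, q ≠ p → ∀ R : (E.toAffine⁄Kb).Point, q ^ e q • R = 0 → τ • R = R) ∧
          h.rep (pow_ne_zero _ hp.ne_zero) τ = X := by
  classical
  have := Fact.mk hp
  obtain ⟨B, j, hj0, hlev⟩ := exists_level_det_one_tate Kb p E hj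
  set π : ℤ_[p] := (p : ℤ_[p]) with hπ
  set x : ℤ_[p] := π ^ j with hx
  obtain ⟨u, hu⟩ : ∃ u : ℤ_[p]ˣ, (u : ℤ_[p]) = 1 + x := by
    refine ⟨(isUnit_iff_toZMod.mpr ?_).unit, IsUnit.unit_spec _⟩
    rw [map_add, map_one, hx, hπ, map_pow, map_natCast, ZMod.natCast_self, zero_pow hj0.ne',
      add_zero]
    exact one_ne_zero
  have hux : 1 - x * ↑u⁻¹ = ((u⁻¹ : ℤ_[p]ˣ) : ℤ_[p]) := by
    have h1 : (u : ℤ_[p]) * ↑u⁻¹ = 1 := u.mul_inv
    rw [hu] at h1
    linear_combination -h1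
  obtain ⟨g, hg⟩ := hlev !![0, 1; 0, 0] (by simp [det_fin_two])
  obtain ⟨g', hg'⟩ := hlev !![0, 0; 1, 0] (by simp [det_fin_two])
  obtain ⟨d, hd⟩ := hlev !![1, 0; 0, -(↑u⁻¹ : ℤ_[p])] (by
    simp only [det_fin_two, Matrix.add_apply, Matrix.smul_apply, smul_eq_mul]
    simp [← hx]
    rw [← hu, ← sub_eq_add_neg, hux, Units.mul_inv])
  have hg1 : B.rep g = !![1, x; 0, 1] := by
    rw [hg]; ext i i'; fin_cases i <;> fin_cases i' <;> simp [hx]
  have hg2 : B.rep g' = !![1, 0; x, 1] := by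
    rw [hg']; ext i i'; fin_cases i <;> fin_cases i' <;> simp [hx]
  have hd1 : B.rep d = !![(u : ℤ_[p]), 0; 0, ↑u⁻¹] := by
    rw [hd]
    ext i i'
    fin_cases i <;> fin_cases i' <;> simp [← hx, hu]
    linear_combination hux
  have hd' : B.rep d⁻¹ = !![(↑u⁻¹ : ℤ_[p]), 0; 0, (u : ℤ_[p])] := left_inv_eq_right_inv
    (by rw [← map_mul, inv_mul_cancel, map_one])
    (by rw [hd1]; simp [one_fin_two])
  have hg1' : B.rep g⁻¹ = !![1, -x; 0, 1] := left_inv_eq_right_inv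
    (by rw [← map_mul, inv_mul_cancel, map_one]) (by rw [hg1]; simp [one_fin_two])
  have hg2' : B.rep g'⁻¹ = !![1, 0; -x, 1] := left_inv_eq_right_inv
    (by rw [← map_mul, inv_mul_cancel, map_one]) (by rw [hg2]; simp [one_fin_two])
  set ε : ℤ_[p] := ((u : ℤ_[p]) * u - 1) * x with hε
  have hcU : B.rep (d * g * d⁻¹ * g⁻¹) = !![1, ε; 0, 1] := by
    rw [map_mul, map_mul, map_mul, hd1, hd', hg1, hg1', hε]
    ext i i'
    fin_cases i <;> fin_cases i' <;> simp [Matrix.mul_apply, Fin.sum_univ_two]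
    ring
  have hcL : B.rep (d⁻¹ * g' * (d⁻¹)⁻¹ * g'⁻¹) = !![1, 0; ε, 1] := by
    rw [inv_inv, map_mul, map_mul, map_mul, hd1, hd', hg2, hg2', hε]
    ext i i'
    fin_cases i <;> fin_cases i' <;> simp [Matrix.mul_apply, Fin.sum_univ_two]
    ring
  have hε0 : ε ≠ 0 := by
    have h2 : ((2 + p ^ j : ℕ) : ℤ_[p]) ≠ 0 := Nat.cast_ne_zero.2 (by omega)
    rw [hε, hu, show (1 + x) * (1 + x) - 1 = x * ((2 + p ^ j : ℕ) : ℤ_[p]) by
      rw [hx, hπ]; push_cast; ring]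
    exact mul_ne_zero (mul_ne_zero (pow_ne_zero _ (NeZero.ne π)) h2) (pow_ne_zero _ (NeZero.ne π))
  let cd : ℕ → ℕ := fun q => Nat.card (GL (Fin 2) (ZMod q))
  obtain ⟨C, hC⟩ : ∃ C : ℤ_[p], ((∏ q ∈ S, cd q : ℕ) : ℤ_[p]) = C := ⟨_, rfl⟩
  have hC0 : C ≠ 0 := hC ▸ Nat.cast_ne_zero.mpr (Finset.prod_ne_zero_iff.mpr fun q hq => by
    have := Fact.mk (hS q hq)
    exact Nat.card_pos.ne')
  set b := ε * C with hb
  obtain ⟨c, r, hr⟩ := exists_dvd_prime_pow
    (show π * (b * b) ≠ 0 from mul_ne_zero (NeZero.ne π)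
      (mul_self_ne_zero.mpr (mul_ne_zero hε0 hC0)))
  refine ⟨c, fun e k P Q h X hX hXc => ?_⟩
  set n := k + 1
  obtain ⟨Y, rfl⟩ := hXc
  by_cases hnc : n ≤ c
  · refine ⟨1, one_mem _, fun q _ _ R _ => one_smul _ R, ?_⟩
    rw [map_one, show ((p ^ c : ℕ) : ZMod (p ^ n)) = 0 from
      (ZMod.natCast_eq_zero_iff _ _).2 (pow_dvd_pow p hnc), zero_smul, add_zero]
  push Not at hnc
  -- exponents
  set S' := S.erase p
  obtain ⟨m, hm⟩ : ∃ m, ∏ q ∈ S', cd q * q ^ e q = m := ⟨_, rfl⟩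
  obtain ⟨w, hw⟩ : ∃ w, w * ((∏ q ∈ S', q ^ e q : ℕ) : ℤ_[p]) = 1 := (isUnit_iff_toZMod.mpr (by
    rw [map_natCast, Ne, ZMod.natCast_eq_zero_iff, Prime.dvd_finsetProd_iff hp.prime]
    rintro ⟨q, hq, hdq⟩
    obtain ⟨hne, hqS⟩ := Finset.mem_erase.1 hq
    exact hne ((Nat.prime_dvd_prime_iff_eq hp (hS q hqS)).mp (hp.dvd_of_dvd_pow hdq)).symm
    )).exists_left_inv
  obtain ⟨C', hC'⟩ : ∏ q ∈ S', cd q ∣ ∏ q ∈ S, cd q :=
    Finset.prod_dvd_prod_of_subset _ _ _ (Finset.erase_subset _ _)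
  have hlift : ∀ z : ℤ_[p], ∃ (t : ℕ) (y : ℤ_[p]),
      ((m * t : ℕ) : ℤ_[p]) = C * z + π ^ n * y := fun z => by
    obtain ⟨z', hz'⟩ : ∃ z', (C' : ℤ_[p]) * z * w = z' := ⟨_, rfl⟩
    have : NeZero (p ^ n) := ⟨pow_ne_zero _ hp.ne_zero⟩
    obtain ⟨y, hy⟩ := (toZModPow_eq_iff (n := n)
      (x := ((PadicInt.toZModPow n z').val : ℤ_[p])) (y := z')).mp
      (by rw [map_natCast, ZMod.natCast_zmod_val])
    refine ⟨(PadicInt.toZModPow n z').val, (m : ℤ_[p]) * y, ?_⟩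
    rw [Nat.cast_mul, hy, ← hz', ← hC, hC', ← hm, Finset.prod_mul_distrib]
    push_cast at hw ⊢
    linear_combination (∏ q ∈ S', (cd q : ℤ_[p])) * (C' : ℤ_[p]) * z * hw
  let A : Submonoid (M2 ℤ_[p]) :=
    { carrier := {Z | ∃ τ ∈ commutator (Kb ≃ₐ[K] Kb),
        (∀ q ∈ S, q ≠ p → ∀ R : (E.toAffine⁄Kb).Point, q ^ e q • R = 0 → τ • R = R) ∧
          redZ n (B.rep τ) = redZ n Z}
      one_mem' := ⟨1, one_mem _, fun q _ _ R _ => one_smul _ R, by rw [map_one]⟩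
      mul_mem' := fun {Z Z'} ⟨s, hs, hs', hs''⟩ ⟨t, ht, ht', ht''⟩ => ⟨s * t, mul_mem hs ht,
        fun q hq hne R hR => by rw [mul_smul, ht' q hq hne R hR, hs' q hq hne R hR],
        by rw [map_mul, map_mul, map_mul, hs'', ht'']⟩ }
  have hgen : ∀ (γ : Kb ≃ₐ[K] Kb) (N : M2 ℤ_[p]), γ ∈ commutator (Kb ≃ₐ[K] Kb) →
      B.rep γ = 1 + ε • N → N * N = 0 → ∀ z, 1 + (b * z) • N ∈ A := fun γ N hγ hN hNN z => by
    obtain ⟨t, y, hy⟩ := hlift z
    refine ⟨γ ^ (m * t), pow_mem hγ _, fun q hq hne R hR => ?_, ?_⟩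
    · obtain ⟨i, hi⟩ := hm ▸ Finset.dvd_prod_of_mem (fun q => cd q * q ^ e q)
        (Finset.mem_erase.2 ⟨hne, hq⟩ : q ∈ S')
      rw [hi, mul_assoc, mul_comm, pow_mul]
      exact pow_card_smul (hS q hq) _ _ hR
    · have hsq : ∀ l : ℕ, B.rep γ ^ l = 1 + ((l : ℤ_[p]) * ε) • N := fun l => by
        induction l with
        | zero => simp
        | succ l ih =>
          rw [pow_succ, ih, hN, add_mul, one_mul, mul_add, mul_one, smul_mul_smul_comm, hNN,
            smul_zero, add_zero, add_assoc, ← add_smul]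
          congr 2
          push_cast
          ring
      rw [map_pow, hsq, hy, show (C * z + π ^ n * y) * ε = b * z + π ^ n * (y * ε) by
        rw [hb]; ring, add_smul, ← add_assoc, map_add, mul_smul (π ^ n), redZ_smul, add_zero]
  have hcomm : ∀ a a' : Kb ≃ₐ[K] Kb, a * a' * a⁻¹ * a'⁻¹ ∈ commutator (Kb ≃ₐ[K] Kb) :=
      fun a a' => by
    rw [commutator_eq_closure]; exact Subgroup.subset_closure ⟨a, a', rfl⟩
  have hU : ∀ z, (!![1, b * z; 0, 1] : M2 ℤ_[p]) ∈ A := fun z => by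
    convert hgen (d * g * d⁻¹ * g⁻¹) !![0, 1; 0, 0] (hcomm d g) ?_ ?_ z using 1
    · ext i i'; fin_cases i <;> fin_cases i' <;> simp
    · refine hcU.trans ?_
      ext i i'; fin_cases i <;> fin_cases i' <;> simp
    · ext i i'; fin_cases i <;> fin_cases i' <;> simp [Matrix.mul_apply, Fin.sum_univ_two]
  have hL : ∀ z, (!![1, 0; b * z, 1] : M2 ℤ_[p]) ∈ A := fun z => by
    convert hgen (d⁻¹ * g' * (d⁻¹)⁻¹ * g'⁻¹) !![0, 0; 1, 0] (hcomm d⁻¹ g') ?_ ?_ z using 1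
    · ext i i'; fin_cases i <;> fin_cases i' <;> simp
    · refine hcL.trans ?_
      ext i i'; fin_cases i <;> fin_cases i' <;> simp
    · ext i i'; fin_cases i <;> fin_cases i' <;> simp [Matrix.mul_apply, Fin.sum_univ_two]
  -- the matrix in the Tate basis, of determinant one
  obtain ⟨U, hU'⟩ := exists_conj B h
  obtain ⟨Y', rfl⟩ := redZ_surjective n Y
  set Z : M2 ℤ_[p] := 1 + π ^ c • Y' with hZ
  have hZX : redZ n Z = 1 + ((p ^ c : ℕ) : ZMod (p ^ n)) • redZ n Y' := by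
    rw [hZ, map_add, map_one]
    congr 1
    ext i i'
    simp [hπ]
  rw [← hZX] at hX ⊢
  set Z' : M2 ℤ_[p] := (U : M2 ℤ_[p]) * Z * (↑U⁻¹ : M2 ℤ_[p]) with hZ'
  obtain ⟨y, hy⟩ : ∃ y, Z'.det = 1 + π ^ n * y := toZModPow_eq_iff.mp (by
    rw [hZ', det_mul, det_mul, mul_right_comm, ← det_mul, Units.mul_inv, det_one, one_mul,
      RingHom.map_det, hX, map_one])
  obtain ⟨v, hv⟩ : ∃ v, v * Z'.det = 1 := (isUnit_iff_toZMod.mpr (by
    rw [hy, map_add, map_one, hπ, map_mul, map_pow, map_natCast, ZMod.natCast_self,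
      zero_pow k.succ_ne_zero, zero_mul, add_zero]
    exact one_ne_zero)).exists_left_inv
  obtain ⟨l, hl⟩ := Nat.le.dest hnc.le
  set T : M2 ℤ_[p] := Z' * !![-(v * y), 0; 0, 0] with hT
  have hdiag : Z' * !![v, 0; 0, 1] = Z' + π ^ n • T := by
    rw [hT, ← Algebra.mul_smul_comm]
    conv_rhs => arg 1; rw [← mul_one Z']
    rw [← mul_add]
    congr 1
    ext i i'
    fin_cases i <;> fin_cases i' <;> simp
    linear_combination hv - v * hy
  have hform : Z' + π ^ n • T = 1 + (π * (b * b)) •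
      (r • ((U : M2 ℤ_[p]) * Y' * (↑U⁻¹ : M2 ℤ_[p]) + π ^ l • T)) := by
    rw [smul_smul, ← hr, smul_add, smul_smul, ← pow_add, hl, ← add_assoc]
    congr 1
    rw [hZ', hZ, mul_add, mul_one, add_mul, Units.mul_inv, Algebra.mul_smul_comm, smul_mul_assoc]
  obtain ⟨τ, hτ, hfix, hred⟩ := mem_of_elementary_congr A b hU hL
    (Y := r • ((U : M2 ℤ_[p]) * Y' * (↑U⁻¹ : M2 ℤ_[p]) + π ^ l • T)) (by
      rw [← hform, ← hdiag, det_mul, det_fin_two_of, mul_one, mul_zero, sub_zero, mul_comm]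
      exact hv)
  refine ⟨τ, hτ, hfix, ?_⟩
  rw [← hform, map_add, redZ_smul, add_zero] at hred
  rw [hU', map_mul, map_mul, hred, hZ', map_mul, map_mul]
  simp only [← mul_assoc]
  rw [← map_mul, Units.inv_mul, map_one, one_mul, mul_assoc, ← map_mul, Units.inv_mul, map_one,
    mul_one]

end FA.OpenImageNF

end
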