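import Fermat.Agent.OpenImageNF.TateBasis
import Fermat.Agent.OpenImageNF.NodeClasses

/-!
# An open part of `SL₂(ℤ_p)` in the image, for every prime

Inertia at a pole of the invariant moves the Tate module into the line of nonsingular reduction and
fixes points of finitely many classes only, so it contains a unipotent element other than one, for
every prime `p`. With no stable line this gives an open part of `SL₂(ℤ_p)`.
-/

set_option autoImplicit false
set_option linter.unusedSectionVars false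

noncomputable section

namespace FA.OpenImageNF

open WeierstrassCurve NumberField IsDedekindDomain Matrix FA.IsogenyNF
open scoped WeierstrassCurve.Affine

universe u v

variable {K : Type u} [Field K] [NumberField K] {Kb : Type v} [Field Kb] [DecidableEq Kb]
  [Algebra K Kb] [CharZero Kb] [IsAlgClosed Kb] [Algebra.IsAlgebraic K Kb]
  {p : ℕ} [hp : Fact p.Prime]

local notation "M2" => Matrix (Fin 2) (Fin 2)

/-- A matrix with determinant zero squares to its trace times itself. -/
theorem mul_self_eq_trace_smul {R : Type*} [CommRing R] (a : M2 R) (h : a.det = 0) :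
    a * a = a.trace • a := by
  rw [det_fin_two] at h
  ext i j
  fin_cases i <;> fin_cases j <;> simp [Matrix.mul_apply, Fin.sum_univ_two, trace_fin_two] <;>
    first | ring1 | linear_combination -h

theorem det_one_add_eq {R : Type*} [CommRing R] (a : M2 R) :
    (1 + a).det = 1 + a.trace + a.det := by
  simp [det_fin_two, trace_fin_two]
  ring

/-- **A nontrivial unipotent element** from inertia at a node. -/
theorem exists_unipotent_of_node {W : WeierstrassCurve K} [W.IsElliptic]
    {A : ValuationSubring Kb} {w : HeightOneSpectrum (𝓞 K)} {π : K} {N : ℕ} {r : Kb}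
    (D : NodeK W A w π N r) (B : TateGen Kb p W) :
    ∃ σ, (B.rep σ - 1) * (B.rep σ - 1) = 0 ∧ B.rep σ ≠ 1 := by
  classical
  set I := inertGroup K A
  let U : Set (Fin 2 → ℤ_[p]) := {u | ∀ n, B.φ n u ∈ D.e0Sub}
  have hUsmul : ∀ (c : ℤ_[p]) u, u ∈ U → c • u ∈ U := fun c u hu n => by
    have : NeZero (p ^ n) := ⟨pow_ne_zero _ hp.out.ne_zero⟩
    rw [show B.φ n (c • u) = B.φ n ((PadicInt.toZModPow n c).val • u) from
      B.phi_eq_iff.mpr fun i => by simp, map_nsmul]
    exact D.e0Sub.nsmul_mem (hu n) _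
  have hUadd : ∀ u v, u ∈ U → v ∈ U → u + v ∈ U := fun u v hu hv n => by
    rw [map_add]; exact add_mem (hu n) (hv n)
  have hIU : ∀ σ ∈ I, ∀ v, (B.rep σ - 1) *ᵥ v ∈ U := fun σ hσ v n => by
    rw [sub_mulVec, one_mulVec, map_sub, ← B.rep_spec]
    exact D.smul_sub_mem hσ _
  obtain ⟨P, hP, hP0⟩ := D.exists_torsion_not_mem hp.out
  obtain ⟨v₁, rfl⟩ := B.surj 1 P (by rwa [pow_one])
  -- the vectors of nonsingular reduction span at most a line
  have hcross : ∀ u v, u ∈ U → v ∈ U → u 0 * v 1 - u 1 * v 0 = 0 := fun u v hu hv => by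
    by_contra hd
    set d := u 0 * v 1 - u 1 * v 0
    have hdv : d • v₁ ∈ U := by
      have e : d • v₁ = (v₁ 0 * v 1 - v₁ 1 * v 0) • u + (u 0 * v₁ 1 - u 1 * v₁ 0) • v := by
        funext i; fin_cases i <;> simp [d] <;> ring
      rw [e]; exact hUadd _ _ (hUsmul _ _ hu) (hUsmul _ _ hv)
    have hsp := PadicInt.unitCoeff_spec hd
    have hk : (p : ℤ_[p]) ^ d.valuation • v₁ ∈ U := by
      have := hUsmul ((PadicInt.unitCoeff hd)⁻¹ : ℤ_[p]ˣ) _ hdv
      rwa [smul_smul, show ((PadicInt.unitCoeff hd)⁻¹ : ℤ_[p]ˣ).val * d =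
        (p : ℤ_[p]) ^ d.valuation from
          (congrArg (_ * ·) hsp).trans (Units.inv_mul_cancel_left _ _)] at this
    refine hP0 ?_
    have := hk (1 + d.valuation)
    rwa [← Nat.cast_pow, Nat.cast_smul_eq_nsmul, map_nsmul, B.pow_compat] at this
  -- a vector fixed by inertia has a multiple in nonsingular reduction
  obtain ⟨f, hf⟩ := D.exists_fixed_class
  set C := Fintype.card (Option (Option (Fin (N + 1) × Bool))) with hC
  have hfixU : ∀ x, (∀ σ ∈ I, B.rep σ *ᵥ x = x) → C.factorial • x ∈ U := fun x hx n => by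
    have hfixn : ∀ k : ℕ, ∀ σ ∈ I, σ • (k • B.φ n x) = k • B.φ n x :=
      fun k σ hσ => by rw [← map_nsmul, B.rep_spec, mulVec_smul, hx σ hσ]
    obtain ⟨i, i', hne, he'⟩ := Fintype.exists_ne_map_eq_of_card_lt
      (fun k : Fin (C + 1) => f (k.1 • B.φ n x)) (by rw [Fintype.card_fin, hC]; omega)
    wlog hlt : i < i' generalizing i i'
    · exact this i' i hne.symm he'.symm (lt_of_le_of_ne (not_lt.mp hlt) hne.symm)
    have hd := hf _ _ (hfixn i'.1) (hfixn i.1) he'.symm
    rw [sub_eq_add_neg, ← sub_nsmul _ hlt.le] at hd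
    obtain ⟨m, hm'⟩ : i'.1 - i.1 ∣ C.factorial :=
      Nat.dvd_factorial (Nat.sub_pos_of_lt hlt) (by have := i'.2; omega)
    rw [map_nsmul, hm', mul_nsmul]
    exact D.e0Sub.nsmul_mem hd m
  have hdet : ∀ σ ∈ I, (B.rep σ - 1).det = 0 := fun σ hσ => by
    have := hcross _ _ (hIU σ hσ (Pi.single 0 1)) (hIU σ hσ (Pi.single 1 1))
    rw [det_fin_two]
    simp only [mulVec_single_one, Matrix.col_apply] at this
    linear_combination this
  by_cases hcomm : ∀ σ ∈ I, ∀ τ ∈ I, B.rep σ * B.rep τ = B.rep τ * B.rep σ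
  swap
  · push Not at hcomm
    obtain ⟨σ, hσ, τ, hτ, hne⟩ := hcomm
    set x := σ * τ * σ⁻¹ * τ⁻¹ with hx
    have hxI : x ∈ I := mul_mem (mul_mem (mul_mem hσ hτ) (inv_mem hσ)) (inv_mem hτ)
    refine ⟨x, ?_, fun h => hne ?_⟩
    · let g : (Kb ≃ₐ[K] Kb) →* ℤ_[p] := Matrix.detMonoidHom.comp B.rep
      have hdx : (B.rep x).det = 1 := by
        show g x = 1
        rw [hx, map_mul, map_mul, map_mul, mul_right_comm (g σ), mul_assoc, ← map_mul g σ,
          ← map_mul g τ, mul_inv_cancel, mul_inv_cancel, map_one, one_mul]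
      have htr : (B.rep x - 1).trace = 0 := by
        have := det_one_add_eq (B.rep x - 1)
        rw [add_sub_cancel, hdx, hdet x hxI] at this
        linear_combination -this
      rw [mul_self_eq_trace_smul _ (hdet x hxI), htr, zero_smul]
    · calc B.rep σ * B.rep τ = B.rep (x * (τ * σ)) := by rw [← map_mul, hx]; group
        _ = B.rep τ * B.rep σ := by rw [map_mul, h, one_mul, map_mul]
  by_cases htr : ∀ σ ∈ I, (B.rep σ - 1).trace = 0
  · -- some element is not one
    by_contra! hall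
    have hone : ∀ σ ∈ I, B.rep σ = 1 := fun σ hσ => hall σ
      (by rw [mul_self_eq_trace_smul _ (hdet σ hσ), htr σ hσ, zero_smul])
    have hU : ∀ x, C.factorial • x ∈ U := fun x =>
      hfixU x fun σ hσ => by rw [hone σ hσ, one_mulVec]
    have := hcross _ _ (hU (Pi.single 0 1)) (hU (Pi.single 1 1))
    simp [C.factorial_ne_zero] at this
  exfalso
  push Not at htr
  obtain ⟨σ₀, hσ₀, ht⟩ := htr
  set a := B.rep σ₀ - 1 with ha
  set t := a.trace
  have haa : a * a = t • a := mul_self_eq_trace_smul a (hdet σ₀ hσ₀)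
  obtain ⟨j, hj⟩ : ∃ j : Fin 2, a.col j ≠ 0 := by
    by_contra! h
    refine ht ?_
    show a.trace = 0
    rw [trace_fin_two, show a 0 0 = a.col 0 0 from rfl, show a 1 1 = a.col 1 1 from rfl, h, h]
    simp
  set e := a.col j with he
  have heU : e ∈ U := by rw [he, ← mulVec_single_one]; exact hIU σ₀ hσ₀ _
  have hae : a *ᵥ e = t • e := by
    rw [he, ← mulVec_single_one, mulVec_mulVec, haa, smul_mulVec]
  have hker : ∀ u, u ∈ U → a *ᵥ u = 0 → u = 0 := fun u hu hau => by
    have hp' : ∀ i, e i • u = u i • e := fun i => by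
      have := hcross u e hu heU
      funext k; fin_cases i <;> fin_cases k <;> simp <;>
        first | ring1 | linear_combination this | linear_combination -this
    funext i
    have := congrArg (fun w => a *ᵥ w) (hp' i)
    simp only [mulVec_smul, hau, hae, smul_zero, smul_smul] at this
    exact (mul_eq_zero.mp ((smul_eq_zero.mp this.symm).resolve_right hj)).resolve_right ht
  have hw0 : ∀ v, t • v - a *ᵥ v = 0 := fun v => by
    set x := t • v - a *ᵥ v
    have hax : a *ᵥ x = 0 := by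
      rw [mulVec_sub, mulVec_smul, mulVec_mulVec, haa, smul_mulVec, sub_self]
    have hfix : ∀ τ ∈ I, B.rep τ *ᵥ x = x := fun τ hτ => by
      have hb := hker _ (hIU τ hτ x) (by
        rw [mulVec_mulVec, show a * (B.rep τ - 1) = (B.rep τ - 1) * a by
            simp only [ha, mul_sub, sub_mul, one_mul, mul_one, hcomm _ hσ₀ _ hτ]; abel,
          ← mulVec_mulVec, hax, mulVec_zero])
      rwa [sub_mulVec, one_mulVec, sub_eq_zero] at hb
    have := hker _ (hfixU x hfix) (by rw [mulVec_smul, hax, smul_zero])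
    exact (smul_eq_zero.mp this).resolve_left C.factorial_ne_zero
  have hat : a = t • 1 := Matrix.ext_iff_mulVec.mpr fun v => by
    rw [smul_mulVec, one_mulVec]; exact (sub_eq_zero.mp (hw0 v)).symm
  have := hdet σ₀ hσ₀
  rw [← ha, hat, det_smul, det_one, mul_one] at this
  exact ht (pow_eq_zero_iff'.mp this).1

variable (E : WeierstrassCurve K) [E.IsElliptic]

variable (Kb p) in
/-- **A Tate basis with an open part of `SL₂(ℤ_p)` in the image.** -/
theorem exists_level_det_one_tate (hj : ¬ IsIntegral ℤ E.j) :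
    ∃ (B : TateGen Kb p E) (k : ℕ), 0 < k ∧
      ∀ Y : M2 ℤ_[p], (1 + (p : ℤ_[p]) ^ k • Y).det = 1 →
        ∃ σ, B.rep σ = 1 + (p : ℤ_[p]) ^ k • Y := by
  obtain ⟨w, hw⟩ : ∃ w : HeightOneSpectrum (𝓞 K), 1 < w.valuation K E.j := by
    by_contra! hall
    obtain ⟨x, hx⟩ := HeightOneSpectrum.mem_integers_of_valuation_le_one K E.j hall
    exact hj (hx ▸ x.2)
  obtain ⟨h0, h1728, hI, hc, hΔ⟩ := poleModel_at w hw
  have := poleModel_isElliptic h0 h1728
  obtain ⟨k, hk⟩ : ∃ k : ℤ, w.valuation K E.j = WithZero.exp k :=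
    ⟨_, (WithZero.exp_log fun h => by rw [h] at hw; exact absurd hw (not_lt.2 zero_le)).symm⟩
  have hk0 : 0 < k := by rwa [hk, ← WithZero.exp_zero, WithZero.exp_lt_exp] at hw
  obtain ⟨N, rfl⟩ := Int.eq_ofNat_of_zero_le hk0.le
  rw [hk, ← WithZero.exp_neg] at hΔ
  obtain ⟨A, π, r, D⟩ := exists_nodeK Kb (poleModel E.j) w hI (by exact_mod_cast hk0) hΔ hc
  obtain ⟨B₀⟩ := exists_tateGen Kb p (poleModel E.j)
  obtain ⟨σ, hsq, hne⟩ := exists_unipotent_of_node D B₀
  obtain ⟨e, he⟩ := exists_twist (Kb := Kb) (E := poleModel E.j) (E' := E)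
    (poleModel_j h0 h1728) (by rwa [poleModel_j h0 h1728])
    (by rw [poleModel_j h0 h1728]; exact fun h => h1728 (by rw [h, sub_self]))
  set B := B₀.push e
  have hrep : B.rep (σ ^ 2) = 1 + (2 : ℤ_[p]) • (B₀.rep σ - 1) := by
    rw [B₀.push_rep e (he σ), map_pow]
    have h2 : B₀.rep σ ^ 2 = 1 + 2 • (B₀.rep σ - 1) + (B₀.rep σ - 1) * (B₀.rep σ - 1) := by
      noncomm_ring
    rw [h2, hsq, add_zero, two_smul, two_smul]
  obtain ⟨k, hk⟩ := FA.PadicImage.exists_level_det_one B.rep B.isClosed_range_rep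
    (fun v hv => B.exists_not_stable hj hv) (σ := σ ^ 2)
    (by rw [hrep, add_sub_cancel_left, smul_mul_assoc, Algebra.mul_smul_comm, hsq, smul_zero,
      smul_zero])
    fun h => by
      rw [hrep, add_eq_left, smul_eq_zero, sub_eq_zero] at h
      exact h.elim two_ne_zero hne
  refine ⟨B, k + 1, k.succ_pos, fun Y hY => ?_⟩
  rw [pow_succ, ← smul_smul] at hY ⊢
  exact hk _ hY

end FA.OpenImageNF

end
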